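import Mathlib

/-!
# Rational points of `y² = x (x - 1) (x - 81)` (Cremona `15a2`)

A complete 2-descent showing the only rational points have `y = 0`.

The curve is mapped to the intersection of quadrics `r² - p² = 1`, `r² - q² = 81`, which is
shown to have no rational points by infinite descent on the denominator.
-/

namespace Fermat.Agent.S51

/-! ## Coprimality helpers -/

/-- From `a² = b² + k e²` with `a` coprime to `e` and to `k`. -/
lemma descent_cop_aux {a b e k : ℤ} (h : a ^ 2 = b ^ 2 + k * e ^ 2) (hae : IsCoprime a e)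
    (hak : IsCoprime a k) : IsCoprime a b ∧ IsCoprime b e := by
  constructor
  · have h1 : IsCoprime a (k * e ^ 2) := hak.mul_right hae.pow_right
    have h2 : IsCoprime a (-(k * e ^ 2) + a * a) := h1.neg_right.add_mul_left_right a
    have h3 : b ^ 2 = -(k * e ^ 2) + a * a := by linear_combination -h
    rw [← h3] at h2
    exact (IsCoprime.pow_right_iff (by norm_num : 0 < 2)).1 h2
  · have h1 : IsCoprime (a ^ 2) e := hae.pow_left
    have h2 : IsCoprime (a ^ 2 + e * (-k * e)) e := h1.add_mul_left_left (-k * e)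
    have h3 : b ^ 2 = a ^ 2 + e * (-k * e) := by linear_combination -h
    rw [← h3] at h2
    exact (IsCoprime.pow_left_iff (by norm_num : 0 < 2)).1 h2

/-- `X + Y` and `X - Y` are coprime when `X`, `Y` are and `X + Y` is odd. -/
lemma descent_cop_add_sub {X Y : ℤ} (h : IsCoprime X Y) (hodd : Odd (X + Y)) :
    IsCoprime (X + Y) (X - Y) := by
  obtain ⟨k, hk⟩ := hodd
  have h2 : IsCoprime (X + Y) 2 := ⟨1, -k, by rw [hk]; ring⟩
  have h3 : IsCoprime (X + Y) X := by
    have h4 : IsCoprime (Y + X * 1) X := h.symm.add_mul_left_left 1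
    have h5 : Y + X * 1 = X + Y := by ring
    rwa [h5] at h4
  have h4 : IsCoprime (X + Y) (2 * X) := h2.mul_right h3
  have h5 : IsCoprime (X + Y) (2 * X + (X + Y) * (-1)) := h4.add_mul_left_right (-1)
  have h6 : 2 * X + (X + Y) * (-1) = X - Y := by ring
  rwa [h6] at h5

/-- Coprimality of the half sum and half difference. -/
lemma descent_cop_half {S T : ℤ} (h : IsCoprime (S + T) (S - T)) : IsCoprime S T := by
  obtain ⟨u, v, huv⟩ := h
  exact ⟨u + v, u - v, by linear_combination huv⟩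

lemma descent_prime_five : Prime (5 : ℤ) :=
  Int.prime_iff_natAbs_prime.2 (by norm_num)

lemma descent_prime_three : Prime (3 : ℤ) :=
  Int.prime_iff_natAbs_prime.2 (by norm_num)

lemma descent_not_isUnit_of_two_le {n : ℤ} (h : 2 ≤ n) : ¬ IsUnit n := by
  intro hu
  rcases Int.isUnit_iff.1 hu with h1 | h1 <;> omega

/-- From `B² - C² = 5 E²` with `B`, `C` both coprime to `E`. -/
lemma descent_cop_five {B C E : ℤ} (h : B ^ 2 - C ^ 2 = 5 * E ^ 2) (hBE : IsCoprime B E)
    (hCE : IsCoprime C E) : IsCoprime B C := by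
  by_cases h5 : (5 : ℤ) ∣ B
  · have h5C : ¬ (5 : ℤ) ∣ C := by
      intro h5C
      obtain ⟨B', rfl⟩ := h5
      obtain ⟨C', rfl⟩ := h5C
      have h' : 25 * B' ^ 2 - 25 * C' ^ 2 = 5 * E ^ 2 := by linear_combination h
      have h5E2 : (5 : ℤ) ∣ E ^ 2 := by omega
      have h5E : (5 : ℤ) ∣ E := descent_prime_five.dvd_of_dvd_pow h5E2
      exact descent_not_isUnit_of_two_le (by norm_num)
        (hBE.isUnit_of_dvd' (dvd_mul_right 5 B') h5E)
    have hC5 : IsCoprime C (-5) :=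
      ((descent_prime_five.coprime_iff_not_dvd).2 h5C).symm.neg_right
    have hh : C ^ 2 = B ^ 2 + (-5) * E ^ 2 := by linear_combination -h
    exact (descent_cop_aux hh hCE hC5).1.symm
  · have hB5 : IsCoprime B 5 := ((descent_prime_five.coprime_iff_not_dvd).2 h5).symm
    have hh : B ^ 2 = C ^ 2 + 5 * E ^ 2 := by linear_combination h
    exact (descent_cop_aux hh hBE hB5).1

/-! ## Squares from coprime products -/

lemma descent_sq_of_pos {X Y n : ℤ} (hX : 0 < X) (hc : IsCoprime X Y) (h : X * Y = n ^ 2) :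
    ∃ s : ℤ, 0 < s ∧ X = s ^ 2 := by
  obtain ⟨a0, h0 | h0⟩ := Int.sq_of_isCoprime hc h
  · refine ⟨|a0|, ?_, by rw [sq_abs]; exact h0⟩
    have : a0 ≠ 0 := by
      rintro rfl
      simp at h0
      omega
    exact abs_pos.2 this
  · exfalso
    have := sq_nonneg a0
    omega

lemma descent_five_twist {X Y n : ℤ} (hX : 0 < X) (hY : 0 < Y) (hc : IsCoprime X Y)
    (h : X * Y = 5 * n ^ 2) : (∃ x : ℤ, X = x ^ 2) ∨ (∃ x : ℤ, Y = x ^ 2) := by
  have h5 : (5 : ℤ) ∣ X * Y := ⟨n ^ 2, h⟩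
  rcases descent_prime_five.dvd_or_dvd h5 with ⟨X', rfl⟩ | ⟨Y', rfl⟩
  · right
    have hc' : IsCoprime Y X' := hc.of_mul_left_right.symm
    have h' : Y * X' = n ^ 2 := by
      have : (5 : ℤ) * (Y * X') = 5 * n ^ 2 := by linear_combination h
      exact mul_left_cancel₀ (by norm_num) this
    obtain ⟨s, -, hs⟩ := descent_sq_of_pos hY hc' h'
    exact ⟨s, hs⟩
  · left
    have hc' : IsCoprime X Y' := hc.of_mul_right_right
    have h' : X * Y' = n ^ 2 := by
      have : (5 : ℤ) * (X * Y') = 5 * n ^ 2 := by linear_combination h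
      exact mul_left_cancel₀ (by norm_num) this
    obtain ⟨s, -, hs⟩ := descent_sq_of_pos hX hc' h'
    exact ⟨s, hs⟩

/-! ## The descent step -/

/-- Given the factorisation data, produce a strictly smaller solution. -/
lemma descent_finish {lam a b c e s t w X : ℤ} (hlam : 0 < lam) (hb : 0 < b) (he : 0 < e)
    (hs : 0 < s) (ht : 0 < t)
    (h1 : a + b = lam * s ^ 2) (h2 : a - b = lam * t ^ 2) (h3 : a + c = lam * w ^ 2)
    (h4 : b + c = lam * X ^ 2) (h5 : a ^ 2 = b ^ 2 + e ^ 2) (h6 : a ^ 2 = c ^ 2 + 81 * e ^ 2) :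
    ∃ A B C E : ℤ, 0 < E ∧ E < e ∧ A ^ 2 = B ^ 2 + E ^ 2 ∧ A ^ 2 = C ^ 2 + 81 * E ^ 2 := by
  have hlam0 : lam ≠ 0 := hlam.ne'
  have hs0 : s ≠ 0 := hs.ne'
  -- `w² = X² + t²`
  have hA : w ^ 2 = X ^ 2 + t ^ 2 := by
    have : lam * w ^ 2 = lam * (X ^ 2 + t ^ 2) := by linear_combination h4 + h2 - h3
    exact mul_left_cancel₀ hlam0 this
  -- `(w X)² = (w² - 81 t²) s²`
  have hkey : (w * X) ^ 2 = (w ^ 2 - 81 * t ^ 2) * s ^ 2 := by
    have : lam ^ 2 * (w * X) ^ 2 = lam ^ 2 * ((w ^ 2 - 81 * t ^ 2) * s ^ 2) := by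
      calc lam ^ 2 * (w * X) ^ 2 = (lam * w ^ 2) * (lam * X ^ 2) := by ring
        _ = (a + c) * (b + c) := by rw [← h3, ← h4]
        _ = ((a + c) - 81 * (a - b)) * (a + b) := by linear_combination 81 * h5 - h6
        _ = (lam * w ^ 2 - 81 * (lam * t ^ 2)) * (lam * s ^ 2) := by rw [← h3, ← h2, ← h1]
        _ = lam ^ 2 * ((w ^ 2 - 81 * t ^ 2) * s ^ 2) := by ring
    exact mul_left_cancel₀ (pow_ne_zero 2 hlam0) this
  have hdvd : s ∣ w * X := by
    have : s ^ 2 ∣ (w * X) ^ 2 := ⟨w ^ 2 - 81 * t ^ 2, by rw [hkey]; ring⟩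
    exact (Int.pow_dvd_pow_iff two_ne_zero).1 this
  obtain ⟨C, hC⟩ := hdvd
  have hC2 : w ^ 2 = C ^ 2 + 81 * t ^ 2 := by
    have : s ^ 2 * w ^ 2 = s ^ 2 * (C ^ 2 + 81 * t ^ 2) := by
      rw [hC] at hkey
      linear_combination -hkey
    exact mul_left_cancel₀ (pow_ne_zero 2 hs0) this
  -- `t < e`
  have hst : t < s := by
    have h7 : lam * (s ^ 2 - t ^ 2) = 2 * b := by linear_combination h2 - h1
    have h8 : 0 < lam * (s ^ 2 - t ^ 2) := by rw [h7]; linarith
    have h9 : 0 < s ^ 2 - t ^ 2 := by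
      by_contra hneg
      have hneg' := not_lt.1 hneg
      nlinarith
    nlinarith
  have he2 : e ^ 2 = (lam * s * t) ^ 2 := by
    have : (a + b) * (a - b) = e ^ 2 := by linear_combination h5
    rw [h1, h2] at this
    linear_combination -this
  have hlst : 0 < lam * s * t := by positivity
  have hest : e = lam * s * t := by
    have h10 : (e - lam * s * t) * (e + lam * s * t) = 0 := by linear_combination he2
    rcases mul_eq_zero.1 h10 with h11 | h11
    · linarith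
    · exfalso; linarith
  have hte : t < e := by
    rw [hest]
    have h1s : 2 ≤ lam * s := by nlinarith
    nlinarith
  exact ⟨w, X, C, t, ht, hte, hA, hC2⟩

lemma descent_sq_mod_eight {x : ℤ} (h : Odd x) : x ^ 2 % 8 = 1 := by
  obtain ⟨k, rfl⟩ := h
  obtain ⟨m, hm⟩ := Int.even_mul_succ_self k
  have : (2 * k + 1) ^ 2 = 8 * m + 1 := by linear_combination 4 * hm
  rw [this]
  omega

/-- `3 ∤ a` in a coprime solution. -/
lemma descent_coprime_three {a b e : ℤ} (h1 : a ^ 2 = b ^ 2 + e ^ 2) (hae : IsCoprime a e) :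
    IsCoprime a 3 := by
  have key : ∀ x y : ZMod 3, x ^ 2 + y ^ 2 = 0 → y = 0 := by decide
  have h3 : ¬ (3 : ℤ) ∣ a := by
    intro h3a
    have ha0 : ((a : ℤ) : ZMod 3) = 0 := (ZMod.intCast_zmod_eq_zero_iff_dvd a 3).2 h3a
    have hc := congrArg (Int.cast : ℤ → ZMod 3) h1
    push_cast at hc
    rw [ha0] at hc
    have he0 : ((e : ℤ) : ZMod 3) = 0 := key _ _ (by rw [← hc]; ring)
    have h3e : (3 : ℤ) ∣ e := (ZMod.intCast_zmod_eq_zero_iff_dvd e 3).1 he0
    exact descent_not_isUnit_of_two_le (by norm_num) (hae.isUnit_of_dvd' h3a h3e)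
  exact ((descent_prime_three.coprime_iff_not_dvd).2 h3).symm

/-- Basic coprimality facts and size bounds of a normalised coprime solution. -/
lemma descent_facts {a b c e : ℤ} (ha : 0 < a) (hb : 0 < b) (he : 0 < e)
    (hae : IsCoprime a e) (h1 : a ^ 2 = b ^ 2 + e ^ 2) (h2 : a ^ 2 = c ^ 2 + 81 * e ^ 2) :
    IsCoprime a b ∧ IsCoprime b e ∧ IsCoprime a c ∧ IsCoprime c e ∧
      b < a ∧ (-a < c ∧ c < a) ∧ (-b < c ∧ c < b) := by
  have ha3 : IsCoprime a 3 := descent_coprime_three h1 hae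
  obtain ⟨hab, hbe⟩ :=
    descent_cop_aux (b := b) (k := 1) (by linear_combination h1) hae isCoprime_one_right
  have ha81 : IsCoprime a 81 := by
    have : (81 : ℤ) = 3 ^ 4 := by norm_num
    rw [this]
    exact ha3.pow_right
  obtain ⟨hac, hce⟩ := descent_cop_aux h2 hae ha81
  have hee : 0 < e ^ 2 := by positivity
  refine ⟨hab, hbe, hac, hce, ?_, ?_, ?_⟩
  · exact (abs_lt_of_sq_lt_sq' (show b ^ 2 < a ^ 2 by linarith) ha.le).2
  · exact abs_lt_of_sq_lt_sq' (show c ^ 2 < a ^ 2 by linarith) ha.le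
  · exact abs_lt_of_sq_lt_sq' (show c ^ 2 < b ^ 2 by linarith) hb.le

lemma descent_odd {a b c e : ℤ} (ha : 0 < a) (hb : 0 < b) (he : 0 < e) (hodd : Odd e)
    (hae : IsCoprime a e) (h1 : a ^ 2 = b ^ 2 + e ^ 2) (h2 : a ^ 2 = c ^ 2 + 81 * e ^ 2) :
    ∃ A B C E : ℤ, 0 < E ∧ E < e ∧ A ^ 2 = B ^ 2 + E ^ 2 ∧ A ^ 2 = C ^ 2 + 81 * E ^ 2 := by
  obtain ⟨hab, hbe, hac, hce, hba, ⟨hca', hca⟩, ⟨hcb', hcb⟩⟩ := descent_facts ha hb he hae h1 h2
  -- first factorisation
  have hf1 : (a + b) * (a - b) = e ^ 2 := by linear_combination h1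
  have hodd1 : Odd (a + b) := by
    have : Odd ((a + b) * (a - b)) := by rw [hf1]; exact hodd.pow
    exact (Int.odd_mul.1 this).1
  have hc1 : IsCoprime (a + b) (a - b) := descent_cop_add_sub hab hodd1
  obtain ⟨s, hs, hs2⟩ := descent_sq_of_pos (by linarith) hc1 hf1
  obtain ⟨t, ht, ht2⟩ := descent_sq_of_pos (by linarith) hc1.symm (by rw [mul_comm]; exact hf1)
  -- second factorisation
  have hf2 : (a + c) * (a - c) = (9 * e) ^ 2 := by linear_combination h2
  have hodd2 : Odd (a + c) := by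
    have h9 : Odd (9 * e) := Int.odd_mul.2 ⟨by decide, hodd⟩
    have : Odd ((a + c) * (a - c)) := by rw [hf2]; exact h9.pow
    exact (Int.odd_mul.1 this).1
  have hc2 : IsCoprime (a + c) (a - c) := descent_cop_add_sub hac hodd2
  obtain ⟨u, hu, hu2⟩ := descent_sq_of_pos (by linarith) hc2 hf2
  obtain ⟨v, hv, hv2⟩ := descent_sq_of_pos (by linarith) hc2.symm (by rw [mul_comm]; exact hf2)
  -- `4 ∣ b`, `4 ∣ c`
  have hoddsq : ∀ {z w : ℤ}, Odd w → w = z ^ 2 → z ^ 2 % 8 = 1 := by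
    intro z w hw hz
    rw [hz] at hw
    exact descent_sq_mod_eight ((Int.odd_pow' two_ne_zero).1 hw)
  have hodd1' : Odd (a - b) := by
    have : Odd ((a + b) * (a - b)) := by rw [hf1]; exact hodd.pow
    exact (Int.odd_mul.1 this).2
  have hodd2' : Odd (a - c) := by
    have h9 : Odd (9 * e) := Int.odd_mul.2 ⟨by decide, hodd⟩
    have : Odd ((a + c) * (a - c)) := by rw [hf2]; exact h9.pow
    exact (Int.odd_mul.1 this).2
  have h4b : (4 : ℤ) ∣ b := by
    have e1 := hoddsq hodd1 hs2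
    have e2 := hoddsq hodd1' ht2
    omega
  have h4c : (4 : ℤ) ∣ c := by
    have e1 := hoddsq hodd2 hu2
    have e2 := hoddsq hodd2' hv2
    omega
  obtain ⟨b2, hb2⟩ := h4b
  obtain ⟨c2, hc2'⟩ := h4c
  -- third factorisation
  have hf3 : (b2 + c2) * (b2 - c2) = 5 * e ^ 2 := by
    have : (16 : ℤ) * ((b2 + c2) * (b2 - c2)) = 16 * (5 * e ^ 2) := by
      have h1' := h1
      have h2' := h2
      rw [hb2] at h1'
      rw [hc2'] at h2'
      linear_combination h2' - h1'
    exact mul_left_cancel₀ (by norm_num) this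
  have hodd3 : Odd (b2 + c2) := by
    have h5 : Odd (5 * e ^ 2) := Int.odd_mul.2 ⟨by decide, hodd.pow⟩
    rw [← hf3] at h5
    exact (Int.odd_mul.1 h5).1
  have hb2e : IsCoprime b2 e := by
    rw [hb2] at hbe
    exact hbe.of_mul_left_right
  have hc2e : IsCoprime c2 e := by
    rw [hc2'] at hce
    exact hce.of_mul_left_right
  have hb2c2 : IsCoprime b2 c2 :=
    descent_cop_five (by linear_combination hf3) hb2e hc2e
  have hc3 : IsCoprime (b2 + c2) (b2 - c2) := descent_cop_add_sub hb2c2 hodd3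
  rcases descent_five_twist (by omega) (by omega) hc3 hf3 with ⟨x, hx⟩ | ⟨x, hx⟩
  · exact descent_finish (lam := 1) (c := c) (s := s) (t := t) (w := u) (X := 2 * x)
      one_pos hb he hs ht (by linarith) (by linarith) (by linarith)
      (by rw [hb2, hc2']; linear_combination 4 * hx) h1 h2
  · exact descent_finish (lam := 1) (c := -c) (s := s) (t := t) (w := v) (X := 2 * x)
      one_pos hb he hs ht (by linarith) (by linarith) (by linarith)
      (by rw [hb2, hc2']; linear_combination 4 * hx) h1 (by rw [neg_sq]; exact h2)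

lemma descent_even {a b c e : ℤ} (ha : 0 < a) (hb : 0 < b) (he : 0 < e) (heven : Even e)
    (hae : IsCoprime a e) (h1 : a ^ 2 = b ^ 2 + e ^ 2) (h2 : a ^ 2 = c ^ 2 + 81 * e ^ 2) :
    ∃ A B C E : ℤ, 0 < E ∧ E < e ∧ A ^ 2 = B ^ 2 + E ^ 2 ∧ A ^ 2 = C ^ 2 + 81 * E ^ 2 := by
  obtain ⟨hab, hbe, hac, hce, hba, ⟨hca', hca⟩, ⟨hcb', hcb⟩⟩ := descent_facts ha hb he hae h1 h2
  obtain ⟨e1, he1⟩ := heven
  -- parity
  have hao : Odd a := by
    rcases Int.even_or_odd a with h | h
    · exfalso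
      have h2a : (2 : ℤ) ∣ a := even_iff_two_dvd.1 h
      have h2e : (2 : ℤ) ∣ e := ⟨e1, by rw [he1]; ring⟩
      exact descent_not_isUnit_of_two_le le_rfl (hae.isUnit_of_dvd' h2a h2e)
    · exact h
  obtain ⟨ka, hka⟩ := hao
  have hbo : Odd b := by
    have : Odd (b ^ 2) :=
      ⟨2 * ka ^ 2 + 2 * ka - 2 * e1 ^ 2, by rw [hka, he1] at h1; linear_combination -h1⟩
    exact (Int.odd_pow' two_ne_zero).1 this
  have hco : Odd c := by
    have : Odd (c ^ 2) :=
      ⟨2 * ka ^ 2 + 2 * ka - 162 * e1 ^ 2, by rw [hka, he1] at h2; linear_combination -h2⟩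
    exact (Int.odd_pow' two_ne_zero).1 this
  obtain ⟨kb, hkb⟩ := hbo
  obtain ⟨kc, hkc⟩ := hco
  -- first factorisation
  have hS : a + b = 2 * (ka + kb + 1) := by rw [hka, hkb]; ring
  have hT : a - b = 2 * (ka - kb) := by rw [hka, hkb]; ring
  have hf1 : (ka + kb + 1) * (ka - kb) = e1 ^ 2 := by
    have : (4 : ℤ) * ((ka + kb + 1) * (ka - kb)) = 4 * e1 ^ 2 := by
      have h3 : (a + b) * (a - b) = e ^ 2 := by linear_combination h1
      rw [hS, hT, he1] at h3
      linear_combination h3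
    exact mul_left_cancel₀ (by norm_num) this
  have hc1 : IsCoprime (ka + kb + 1) (ka - kb) := by
    apply descent_cop_half
    have e1' : ka + kb + 1 + (ka - kb) = a := by rw [hka]; ring
    have e2' : ka + kb + 1 - (ka - kb) = b := by rw [hkb]; ring
    rw [e1', e2']
    exact hab
  obtain ⟨s, hs, hs2⟩ := descent_sq_of_pos (by linarith) hc1 hf1
  obtain ⟨t, ht, ht2⟩ := descent_sq_of_pos (by linarith) hc1.symm (by rw [mul_comm]; exact hf1)
  -- second factorisation
  have hU : a + c = 2 * (ka + kc + 1) := by rw [hka, hkc]; ring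
  have hV : a - c = 2 * (ka - kc) := by rw [hka, hkc]; ring
  have hf2 : (ka + kc + 1) * (ka - kc) = (9 * e1) ^ 2 := by
    have : (4 : ℤ) * ((ka + kc + 1) * (ka - kc)) = 4 * (9 * e1) ^ 2 := by
      have h3 : (a + c) * (a - c) = 81 * e ^ 2 := by linear_combination h2
      rw [hU, hV, he1] at h3
      linear_combination h3
    exact mul_left_cancel₀ (by norm_num) this
  have hc2 : IsCoprime (ka + kc + 1) (ka - kc) := by
    apply descent_cop_half
    have e1' : ka + kc + 1 + (ka - kc) = a := by rw [hka]; ring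
    have e2' : ka + kc + 1 - (ka - kc) = c := by rw [hkc]; ring
    rw [e1', e2']
    exact hac
  obtain ⟨u, hu, hu2⟩ := descent_sq_of_pos (by linarith) hc2 hf2
  obtain ⟨v, hv, hv2⟩ := descent_sq_of_pos (by linarith) hc2.symm (by rw [mul_comm]; exact hf2)
  -- third factorisation
  have hM : b + c = 2 * (kb + kc + 1) := by rw [hkb, hkc]; ring
  have hN : b - c = 2 * (kb - kc) := by rw [hkb, hkc]; ring
  have hf3 : (kb + kc + 1) * (kb - kc) = 5 * (2 * e) ^ 2 := by
    have : (4 : ℤ) * ((kb + kc + 1) * (kb - kc)) = 4 * (5 * (2 * e) ^ 2) := by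
      have h3 : (b + c) * (b - c) = 80 * e ^ 2 := by linear_combination h2 - h1
      rw [hM, hN] at h3
      linear_combination h3
    exact mul_left_cancel₀ (by norm_num) this
  have hbc : IsCoprime b c := by
    have hb2 : IsCoprime b 2 := ⟨1, -kb, by rw [hkb]; ring⟩
    have hc2 : IsCoprime c 2 := ⟨1, -kc, by rw [hkc]; ring⟩
    have h4 : (4 : ℤ) = 2 ^ 2 := by norm_num
    have hb4e : IsCoprime b (4 * e) := by
      rw [h4]
      exact hb2.pow_right.mul_right hbe
    have hc4e : IsCoprime c (4 * e) := by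
      rw [h4]
      exact hc2.pow_right.mul_right hce
    exact descent_cop_five (E := 4 * e) (by linear_combination h2 - h1) hb4e hc4e
  have hc3 : IsCoprime (kb + kc + 1) (kb - kc) := by
    apply descent_cop_half
    have e1' : kb + kc + 1 + (kb - kc) = b := by rw [hkb]; ring
    have e2' : kb + kc + 1 - (kb - kc) = c := by rw [hkc]; ring
    rw [e1', e2']
    exact hbc
  rcases descent_five_twist (by linarith) (by linarith) hc3 hf3 with ⟨x, hx⟩ | ⟨x, hx⟩
  · exact descent_finish (lam := 2) (c := c) (s := s) (t := t) (w := u) (X := x)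
      two_pos hb he hs ht (by rw [hS, hs2]) (by rw [hT, ht2]) (by rw [hU, hu2])
      (by rw [hM, hx]) h1 h2
  · exact descent_finish (lam := 2) (c := -c) (s := s) (t := t) (w := v) (X := x)
      two_pos hb he hs ht (by rw [hS, hs2]) (by rw [hT, ht2])
      (by rw [← sub_eq_add_neg, hV, hv2]) (by rw [← sub_eq_add_neg, hN, hx]) h1
      (by rw [neg_sq]; exact h2)

/-- The descent step for a normalised coprime solution. -/
lemma descent_coprime {a b c e : ℤ} (ha : 0 < a) (hb : 0 < b) (he : 0 < e)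
    (hae : IsCoprime a e) (h1 : a ^ 2 = b ^ 2 + e ^ 2) (h2 : a ^ 2 = c ^ 2 + 81 * e ^ 2) :
    ∃ A B C E : ℤ, 0 < E ∧ E < e ∧ A ^ 2 = B ^ 2 + E ^ 2 ∧ A ^ 2 = C ^ 2 + 81 * E ^ 2 := by
  rcases Int.even_or_odd e with h | h
  · exact descent_even ha hb he h hae h1 h2
  · exact descent_odd ha hb he h hae h1 h2

/-! ## Normalisation and the induction -/

/-- Any integer solution yields a normalised coprime solution with `e` not larger. -/
lemma descent_normalise {a b c e : ℤ} (he : 0 < e) (h1 : a ^ 2 = b ^ 2 + e ^ 2)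
    (h2 : a ^ 2 = c ^ 2 + 81 * e ^ 2) :
    ∃ a1 b1 c1 e1 : ℤ, 0 < a1 ∧ 0 < b1 ∧ 0 < e1 ∧ e1 ≤ e ∧ IsCoprime a1 e1 ∧
      a1 ^ 2 = b1 ^ 2 + e1 ^ 2 ∧ a1 ^ 2 = c1 ^ 2 + 81 * e1 ^ 2 := by
  have hg : 0 < Int.gcd a e := Int.gcd_pos_of_ne_zero_right a he.ne'
  obtain ⟨g, a', e', hg0, hcop, rfl, rfl⟩ := Int.exists_gcd_one' hg
  have hgz : (0 : ℤ) < g := by exact_mod_cast hg0
  have hg2 : ((g : ℤ)) ^ 2 ≠ 0 := pow_ne_zero 2 hgz.ne'
  have hgb : (g : ℤ) ∣ b := by
    have : (g : ℤ) ^ 2 ∣ b ^ 2 := ⟨a' ^ 2 - e' ^ 2, by linear_combination -h1⟩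
    exact (Int.pow_dvd_pow_iff two_ne_zero).1 this
  have hgc : (g : ℤ) ∣ c := by
    have : (g : ℤ) ^ 2 ∣ c ^ 2 := ⟨a' ^ 2 - 81 * e' ^ 2, by linear_combination -h2⟩
    exact (Int.pow_dvd_pow_iff two_ne_zero).1 this
  obtain ⟨b', rfl⟩ := hgb
  obtain ⟨c', rfl⟩ := hgc
  have h1' : a' ^ 2 = b' ^ 2 + e' ^ 2 := by
    have : (g : ℤ) ^ 2 * a' ^ 2 = (g : ℤ) ^ 2 * (b' ^ 2 + e' ^ 2) := by linear_combination h1
    exact mul_left_cancel₀ hg2 this
  have h2' : a' ^ 2 = c' ^ 2 + 81 * e' ^ 2 := by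
    have : (g : ℤ) ^ 2 * a' ^ 2 = (g : ℤ) ^ 2 * (c' ^ 2 + 81 * e' ^ 2) := by
      linear_combination h2
    exact mul_left_cancel₀ hg2 this
  have he' : 0 < e' := by
    by_contra hneg
    have hneg' := not_lt.1 hneg
    nlinarith
  have hle : e' ≤ e' * g := by nlinarith
  have hcop' : IsCoprime a' e' := Int.isCoprime_iff_gcd_eq_one.2 hcop
  have hee : 0 < e' ^ 2 := by positivity
  have ha0 : a' ≠ 0 := by
    rintro rfl
    nlinarith [sq_nonneg b']
  have hb0 : b' ≠ 0 := by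
    rintro rfl
    nlinarith [sq_nonneg c']
  exact ⟨|a'|, |b'|, c', e', abs_pos.2 ha0, abs_pos.2 hb0, he', hle, hcop'.abs_left,
    by rw [sq_abs, sq_abs]; exact h1', by rw [sq_abs]; exact h2'⟩

/-- There is no integer solution with `e ≠ 0`. -/
theorem descent_no_int_sol : ∀ (n : ℕ) (a b c e : ℤ), 0 < e → e < n → a ^ 2 = b ^ 2 + e ^ 2 →
    a ^ 2 = c ^ 2 + 81 * e ^ 2 → False := by
  intro n
  induction n with
  | zero =>
    intro a b c e he hlt _ _
    have : ((0 : ℕ) : ℤ) = 0 := rfl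
    omega
  | succ n ih =>
    intro a b c e he hlt h1 h2
    obtain ⟨a1, b1, c1, e1, ha1, hb1, he1, hle, hcop, h1', h2'⟩ := descent_normalise he h1 h2
    obtain ⟨A, B, C, E, hE, hEe, hA, hC⟩ := descent_coprime ha1 hb1 he1 hcop h1' h2'
    refine ih A B C E hE ?_ hA hC
    push_cast at hlt
    omega

/-- The intersection of quadrics `r² - p² = 1`, `r² - q² = 81` has no rational point. -/
theorem descent_no_rat_sol (r p q : ℚ) (h1 : r ^ 2 - p ^ 2 = 1) (h2 : r ^ 2 - q ^ 2 = 81) :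
    False := by
  set e : ℤ := (r.den : ℤ) * p.den * q.den with he_def
  set a : ℤ := r.num * p.den * q.den with ha_def
  set b : ℤ := p.num * r.den * q.den with hb_def
  set c : ℤ := q.num * r.den * p.den with hc_def
  have he : 0 < e := by
    have h1 : (0 : ℤ) < r.den := by exact_mod_cast r.den_pos
    have h2 : (0 : ℤ) < p.den := by exact_mod_cast p.den_pos
    have h3 : (0 : ℤ) < q.den := by exact_mod_cast q.den_pos
    positivity
  have hr : (r.num : ℚ) = r * r.den := (Rat.mul_den_eq_num r).symm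
  have hp : (p.num : ℚ) = p * p.den := (Rat.mul_den_eq_num p).symm
  have hq : (q.num : ℚ) = q * q.den := (Rat.mul_den_eq_num q).symm
  have ha : (a : ℚ) = r * e := by
    rw [ha_def, he_def]; push_cast; rw [hr]; ring
  have hb : (b : ℚ) = p * e := by
    rw [hb_def, he_def]; push_cast; rw [hp]; ring
  have hc : (c : ℚ) = q * e := by
    rw [hc_def, he_def]; push_cast; rw [hq]; ring
  have e1 : a ^ 2 = b ^ 2 + e ^ 2 := by
    have : ((a ^ 2 : ℤ) : ℚ) = ((b ^ 2 + e ^ 2 : ℤ) : ℚ) := by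
      push_cast
      rw [ha, hb]
      linear_combination (e : ℚ) ^ 2 * h1
    exact_mod_cast this
  have e2 : a ^ 2 = c ^ 2 + 81 * e ^ 2 := by
    have : ((a ^ 2 : ℤ) : ℚ) = ((c ^ 2 + 81 * e ^ 2 : ℤ) : ℚ) := by
      push_cast
      rw [ha, hc]
      linear_combination (e : ℚ) ^ 2 * h2
    exact_mod_cast this
  exact descent_no_int_sol (e.toNat + 1) a b c e he (by push_cast; omega) e1 e2

/-- The only rational points on `y² = x (x - 1) (x - 81)` have `y = 0`. -/
theorem E3_rational_points (x y : ℚ) (h : y ^ 2 = x * (x - 1) * (x - 81)) : y = 0 := by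
  by_contra hy
  have hy2 : (2 * y) ≠ 0 := mul_ne_zero two_ne_zero hy
  have hy22 : (2 * y) ^ 2 ≠ 0 := pow_ne_zero 2 hy2
  refine descent_no_rat_sol ((x ^ 2 - 81) / (2 * y)) ((x ^ 2 - 2 * x + 81) / (2 * y))
    ((x ^ 2 - 162 * x + 81) / (2 * y)) ?_ ?_
  · rw [div_pow, div_pow, ← sub_div, div_eq_iff hy22]
    linear_combination (-4) * h
  · rw [div_pow, div_pow, ← sub_div, div_eq_iff hy22]
    linear_combination (-324) * h

end Fermat.Agent.S51
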