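import Mathlib
import Fermat.Agent.S51.Descent

/-!
# S51: rational points of `X₀(15)` and the final 5-adic contradiction
-/

set_option autoImplicit false

namespace Fermat.Agent.S51

/-- rational points of `Y² = r (9 r - 4) (4 r + 1)` (a model of `X₀(15)`, the curve `15a1`) -/
theorem x015_rational_points (r Y : ℚ) (h : Y ^ 2 = r * (9 * r - 4) * (4 * r + 1)) :
    (r = 0 ∧ Y = 0) ∨ (r = -1/4 ∧ Y = 0) ∨ (r = 4/9 ∧ Y = 0) ∨
      (r = -1/9 ∧ (Y = 5/9 ∨ Y = -5/9)) ∨ (r = 1 ∧ (Y = 5 ∨ Y = -5)) := by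
  -- the case `Y = 0`
  have hY0 : Y = 0 → (r = 0 ∧ Y = 0) ∨ (r = -1/4 ∧ Y = 0) ∨ (r = 4/9 ∧ Y = 0) ∨
      (r = -1/9 ∧ (Y = 5/9 ∨ Y = -5/9)) ∨ (r = 1 ∧ (Y = 5 ∨ Y = -5)) := by
    intro hY
    rw [hY] at h
    have h' : r * (9 * r - 4) * (4 * r + 1) = 0 := by rw [← h]; ring
    rcases mul_eq_zero.mp h' with h1 | h1
    · rcases mul_eq_zero.mp h1 with h2 | h2
      · exact Or.inl ⟨h2, hY⟩
      · refine Or.inr (Or.inr (Or.inl ⟨?_, hY⟩)); linarith
    · refine Or.inr (Or.inl ⟨?_, hY⟩); linarith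
  set u : ℚ := 36 * r - 16 with hu
  by_cases hu0 : u = 0
  · have hr : r = 4/9 := by rw [hu] at hu0; linarith
    have : Y ^ 2 = 0 := by rw [h, hr]; norm_num
    exact hY0 (pow_eq_zero_iff (two_ne_zero) |>.mp this)
  · set y : ℚ := 36 * Y with hy
    have hyu : y ^ 2 = u * (u ^ 2 + 41 * u + 400) := by
      rw [hy, hu, mul_pow, h]; ring
    have key := E3_rational_points (y ^ 2 / u ^ 2) (y * (400 - u ^ 2) / u ^ 2) (by
      field_simp
      rw [hyu]
      ring)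
    have hprod : y * (400 - u ^ 2) = 0 := by
      have := (div_eq_zero_iff.mp key).resolve_right (pow_ne_zero 2 hu0)
      exact this
    rcases mul_eq_zero.mp hprod with h1 | h1
    · apply hY0
      rw [hy] at h1
      linarith
    · have h2 : (u - 20) * (u + 20) = 0 := by linear_combination -h1
      rcases mul_eq_zero.mp h2 with h3 | h3
      · have hr : r = 1 := by rw [hu] at h3; linarith
        refine Or.inr (Or.inr (Or.inr (Or.inr ⟨hr, ?_⟩)))
        have : (Y - 5) * (Y + 5) = 0 := by rw [hr] at h; linear_combination h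
        rcases mul_eq_zero.mp this with h4 | h4
        · left; linarith
        · right; linarith
      · have hr : r = -1/9 := by rw [hu] at h3; linarith
        refine Or.inr (Or.inr (Or.inr (Or.inl ⟨hr, ?_⟩)))
        have : (Y - 5/9) * (Y + 5/9) = 0 := by rw [hr] at h; linear_combination h
        rcases mul_eq_zero.mp this with h4 | h4
        · left; linarith
        · right; linarith

lemma five_dvd_both (A M c4 Δ : ℤ) (hA : ¬ (5 : ℤ) ∣ A) (hM : ¬ (25 : ℤ) ∣ M)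
    (h : A * c4 ^ 3 = 5 * M * Δ) : (5 : ℤ) ∣ c4 ∧ (5 : ℤ) ∣ Δ := by
  have p5 : Prime (5 : ℤ) := by norm_num
  have h1 : (5 : ℤ) ∣ A * c4 ^ 3 := ⟨M * Δ, by rw [h]; ring⟩
  have h2 : (5 : ℤ) ∣ c4 := p5.dvd_of_dvd_pow ((p5.dvd_or_dvd h1).resolve_left hA)
  refine ⟨h2, ?_⟩
  obtain ⟨k, rfl⟩ := h2
  by_contra h5
  have hcop : IsCoprime (5 : ℤ) Δ := (Prime.coprime_iff_not_dvd p5).mpr h5
  have hcop2 : IsCoprime ((5 : ℤ) ^ 2) Δ := hcop.pow_left
  have h4 : (5 : ℤ) * (M * Δ) = 5 * (5 ^ 2 * (A * k ^ 3)) := by linear_combination -h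
  have h3 : (5 : ℤ) ^ 2 ∣ M * Δ := ⟨A * k ^ 3, mul_left_cancel₀ (by norm_num) h4⟩
  have h6 : (5 : ℤ) ^ 2 ∣ M := hcop2.dvd_of_dvd_mul_right h3
  exact hM (by norm_num at h6 ⊢; exact h6)

/-- the final 5-adic contradiction for the four non-cuspidal rational points of `X₀(15)` -/
theorem semistable_contra (c4 Δ : ℤ)
    (hss : ∀ p : ℕ, p.Prime → (p : ℤ) ∣ Δ → ¬ (p : ℤ) ∣ c4) (s : ℚ)
    (hs : s = -25/2 ∨ s = -25/8 ∨ s = -40 ∨ s = -10)
    (h : (c4 : ℚ) ^ 3 * s = Δ * (s ^ 2 + 10 * s + 5) ^ 3) : False := by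
  have key : (5 : ℤ) ∣ c4 ∧ (5 : ℤ) ∣ Δ := by
    rcases hs with rfl | rfl | rfl | rfl
    · apply five_dvd_both (-32) 24389 c4 Δ (by norm_num) (by norm_num)
      have : ((-32 : ℤ) : ℚ) * (c4 : ℚ) ^ 3 = 5 * (24389 : ℤ) * Δ := by
        push_cast; linear_combination (64 / 25 : ℚ) * h
      exact_mod_cast this
    · apply five_dvd_both 32768 9393931 c4 Δ (by norm_num) (by norm_num)
      have : ((32768 : ℤ) : ℚ) * (c4 : ℚ) ^ 3 = 5 * (9393931 : ℤ) * Δ := by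
        push_cast; linear_combination (-262144 / 25 : ℚ) * h
      exact_mod_cast this
    · apply five_dvd_both (-8) 69987605 c4 Δ (by norm_num) (by norm_num)
      have : ((-8 : ℤ) : ℚ) * (c4 : ℚ) ^ 3 = 5 * (69987605 : ℤ) * Δ := by
        push_cast; linear_combination (1 / 5 : ℚ) * h
      exact_mod_cast this
    · apply five_dvd_both (-2) 5 c4 Δ (by norm_num) (by norm_num)
      have : ((-2 : ℤ) : ℚ) * (c4 : ℚ) ^ 3 = 5 * (5 : ℤ) * Δ := by
        push_cast; linear_combination (1 / 5 : ℚ) * h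
      exact_mod_cast this
  exact hss 5 (by norm_num) (by exact_mod_cast key.2) (by exact_mod_cast key.1)


/-- `s = 0` is impossible (it is a cusp). -/
lemma s_ne_zero_of_j (c4 Δ : ℤ) (hΔ : Δ ≠ 0) (s : ℚ)
    (h : (c4 : ℚ) ^ 3 * s = Δ * (s ^ 2 + 10 * s + 5) ^ 3) : s ≠ 0 := by
  rintro rfl
  have : (Δ : ℚ) = 0 := by linear_combination (-1 / 125 : ℚ) * h
  exact hΔ (by exact_mod_cast this)

/-- **Final step of S51**: a rational point `(r, Y)` of `X₀(15)` with `r ≠ 0`, together with the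
relation giving the `X₀(5)`-parameter `s` and the `j`-invariant relation for a semistable integral
model, is contradictory. -/
theorem x015_final (c4 Δ : ℤ) (hΔ : Δ ≠ 0)
    (hss : ∀ p : ℕ, p.Prime → (p : ℤ) ∣ Δ → ¬ (p : ℤ) ∣ c4) (r Y s : ℚ) (hr : r ≠ 0)
    (hY : Y ^ 2 = r * (9 * r - 4) * (4 * r + 1))
    (hs : 2 * r ^ 2 * (s + 11) = 3 * r * (1 + 3 * r) + (r + 1) * Y)
    (hj : (c4 : ℚ) ^ 3 * s = Δ * (s ^ 2 + 10 * s + 5) ^ 3) : False := by
  have hs0 := s_ne_zero_of_j c4 Δ hΔ s hj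
  apply semistable_contra c4 Δ hss s ?_ hj
  rcases x015_rational_points r Y hY with ⟨h1, _⟩ | ⟨h1, h2⟩ | ⟨h1, h2⟩ | ⟨h1, h2 | h2⟩ | ⟨h1, h2 | h2⟩
  · exact absurd h1 hr
  · left; rw [h1, h2] at hs; linarith
  · right; left; rw [h1, h2] at hs; linarith
  · exfalso; apply hs0; rw [h1, h2] at hs; linarith
  · right; right; left; rw [h1, h2] at hs; linarith
  · exfalso; apply hs0; rw [h1, h2] at hs; linarith
  · right; right; right; rw [h1, h2] at hs; linarith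

end Fermat.Agent.S51
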