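import Fermat.Agent.S51.TorsionCommon
import Fermat.Prelude.Def_FLTPrelim_GaloisRep

/-!
# S51 common lemmas: Galois action of `Gal(ℚ̄/ℚ)` on torsion points, rationality of fixed elements,
lines in `𝔽_p`-vector spaces with at most `p²` elements.
-/

set_option autoImplicit false
set_option linter.unusedSectionVars false

namespace Fermat.Agent.S51

open WeierstrassCurve WeierstrassCurve.Affine Polynomial

/-- the algebraic closure of `ℚ` used in the frozen statements -/
abbrev Qbar := AlgebraicClosure ℚ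

instance isAlgebraicQbar_s51 : Algebra.IsAlgebraic ℚ (AlgebraicClosure ℚ) :=
  AlgebraicClosure.isAlgebraic ℚ
instance isAlgClosureQbar_s51 : IsAlgClosure ℚ (AlgebraicClosure ℚ) :=
  ⟨inferInstance, inferInstance⟩
instance isGaloisQbar_s51 : IsGalois ℚ (AlgebraicClosure ℚ) := inferInstance

/-- In an `𝔽_p`-vector space with at most `p²` elements, a proper subspace is the line spanned
by any of its nonzero elements. -/
lemma exists_smul_eq_of_card_le_sq {p : ℕ} [Fact p.Prime] {V : Type*} [AddCommGroup V]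
    [Module (ZMod p) V] [Finite V] (hcard : Nat.card V ≤ p ^ 2) (N : Submodule (ZMod p) V)
    (htop : N ≠ ⊤) {P : V} (hP : P ∈ N) (hP0 : P ≠ 0) {Q : V} (hQ : Q ∈ N) :
    ∃ c : ZMod p, Q = c • P := by
  have hp : 1 < p := (Fact.out : p.Prime).one_lt
  have hV : Nat.card V = p ^ Module.finrank (ZMod p) V := by
    rw [Module.natCard_eq_pow_finrank (K := ZMod p) (V := V), Nat.card_zmod]
  have h2 : Module.finrank (ZMod p) V ≤ 2 := by
    rw [hV] at hcard
    exact (Nat.pow_le_pow_iff_right hp).mp hcard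
  have hlt : Module.finrank (ZMod p) N < Module.finrank (ZMod p) V :=
    Submodule.finrank_lt htop
  have hpos : 0 < Module.finrank (ZMod p) N := by
    rw [Module.finrank_pos_iff_exists_ne_zero]
    exact ⟨⟨P, hP⟩, fun h => hP0 (congrArg Subtype.val h)⟩
  have h1 : Module.finrank (ZMod p) N = 1 := by omega
  have := (finrank_eq_one_iff_of_nonzero' (⟨P, hP⟩ : N)
    (fun h => hP0 (congrArg Subtype.val h))).mp h1 ⟨Q, hQ⟩
  obtain ⟨c, hc⟩ := this
  exact ⟨c, by simpa using (congrArg Subtype.val hc).symm⟩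

/-- an element of `ℚ̄` fixed by the whole Galois group is rational -/
lemma exists_rat_of_fixed (x : Qbar) (hx : ∀ σ : Qbar ≃ₐ[ℚ] Qbar, σ x = x) :
    ∃ q : ℚ, algebraMap ℚ Qbar q = x :=
  (InfiniteGalois.mem_range_algebraMap_iff_fixed (k := ℚ) (K := Qbar) x).mpr hx

lemma baseChange_Δ_ne_zero (E : WeierstrassCurve.Affine ℚ) (hΔ : E.Δ ≠ 0) : (E⁄Qbar).Δ ≠ 0 := by
  show (E.map (algebraMap ℚ Qbar)).Δ ≠ 0
  rw [WeierstrassCurve.map_Δ]
  exact (map_ne_zero_iff _ (algebraMap ℚ Qbar).injective).mpr hΔ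

/-- the underlying point of `σ • P` for a torsion point `P = (x, y)` is `(σ x, σ y)`. -/
lemma coe_smul_torsion_some (E : WeierstrassCurve.Affine ℚ) (n : ℕ) (σ : Qbar ≃ₐ[ℚ] Qbar)
    {x y : Qbar} (h : (E⁄Qbar).Nonsingular x y)
    (hP : Affine.Point.some x y h ∈ Submodule.torsionBy ℤ (E⁄Qbar).Point (n : ℕ)) :
    ((σ • (⟨Affine.Point.some x y h, hP⟩ : Submodule.torsionBy ℤ (E⁄Qbar).Point (n : ℕ)) :
        Submodule.torsionBy ℤ (E⁄Qbar).Point (n : ℕ)) : (E⁄Qbar).Point) =
      Affine.Point.some (σ x) (σ y)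
        ((E.baseChange_nonsingular σ.toAlgHom.injective ..).mpr h) := rfl

end Fermat.Agent.S51
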