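import Fermat.Agent.S51.ParamW
import Fermat.Prelude.Def_FLTPrelim_GaloisRep

/-!
# S51: compatibility of the `x`-coordinate functions with ring homomorphisms and with the
Galois action on `AlgebraicClosure ℚ`.
-/

set_option autoImplicit false

namespace Fermat.Agent.S51

open WeierstrassCurve

section map

variable {F F' : Type*} [Field F] [Field F'] (f : F →+* F') (W : WeierstrassCurve F) (x : F)

lemma psi2sq_map : psi2sq (W.map f) (f x) = f (psi2sq W x) := by
  simp only [psi2sq, map_b₂, map_b₄, map_b₆, map_add, map_mul, map_pow, map_ofNat]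

lemma psi3_map : psi3 (W.map f) (f x) = f (psi3 W x) := by
  simp only [psi3, map_b₂, map_b₄, map_b₆, map_b₈, map_add, map_mul, map_pow, map_ofNat]

lemma hx_map : hx (W.map f) (f x) = f (hx W x) := by
  simp only [hx, map_b₂, map_b₄, map_add, map_mul, map_pow, map_ofNat]

lemma tx_map : tx (W.map f) (f x) = f (tx W x) := by
  simp only [tx, map_b₂, map_add, map_mul, map_ofNat]

lemma dupx_map : dupx (W.map f) (f x) = f (dupx W x) := by
  simp only [dupx, psi2sq_map, psi3_map, map_sub, map_div₀]

lemma psi5_map : psi5 (W.map f) (f x) = f (psi5 W x) := by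
  simp only [psi5, psi5L, psi2sq_map, psi3_map, hx_map, map_add, map_sub, map_mul, map_pow]

lemma betaAt_map : betaAt (W.map f) (f x) = f (betaAt W x) := by
  simp only [betaAt, betaL, psi2sq_map, psi3_map, map_neg, map_div₀, map_pow]

lemma sAt_map : sAt (W.map f) (f x) = f (sAt W x) := by
  simp only [sAt, sOfBeta, betaAt_map, map_sub, map_mul, map_div₀, map_pow, map_ofNat, map_one]

lemma tAt_map : tAt (W.map f) (f x) = f (tAt W x) := by
  simp only [tAt, psi2sq_map, hx_map, tx_map, map_sub, map_mul, map_div₀, map_ofNat]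

end map

section galois

variable {k K : Type*} [Field k] [Field K] [Algebra k K] (W : WeierstrassCurve k)
  (σ : K ≃ₐ[k] K) (x : K)

lemma baseChange_map_algEquiv : (W.baseChange K).map (σ : K →+* K) = W.baseChange K := by
  show (W.map (algebraMap k K)).map (σ : K →+* K) = W.map (algebraMap k K)
  rw [WeierstrassCurve.map_map]
  congr 1
  ext a
  simp

lemma psi2sq_algEquiv : psi2sq (W.baseChange K) (σ x) = σ (psi2sq (W.baseChange K) x) := by
  have := psi2sq_map (σ : K →+* K) (W.baseChange K) x
  rwa [baseChange_map_algEquiv] at this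

lemma psi3_algEquiv : psi3 (W.baseChange K) (σ x) = σ (psi3 (W.baseChange K) x) := by
  have := psi3_map (σ : K →+* K) (W.baseChange K) x
  rwa [baseChange_map_algEquiv] at this

lemma dupx_algEquiv : dupx (W.baseChange K) (σ x) = σ (dupx (W.baseChange K) x) := by
  have := dupx_map (σ : K →+* K) (W.baseChange K) x
  rwa [baseChange_map_algEquiv] at this

lemma psi5_algEquiv : psi5 (W.baseChange K) (σ x) = σ (psi5 (W.baseChange K) x) := by
  have := psi5_map (σ : K →+* K) (W.baseChange K) x
  rwa [baseChange_map_algEquiv] at this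

lemma sAt_algEquiv : sAt (W.baseChange K) (σ x) = σ (sAt (W.baseChange K) x) := by
  have := sAt_map (σ : K →+* K) (W.baseChange K) x
  rwa [baseChange_map_algEquiv] at this

lemma tAt_algEquiv : tAt (W.baseChange K) (σ x) = σ (tAt (W.baseChange K) x) := by
  have := tAt_map (σ : K →+* K) (W.baseChange K) x
  rwa [baseChange_map_algEquiv] at this

end galois

end Fermat.Agent.S51
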