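import Fermat.Agent.S51.Count
import Fermat.Agent.S51.GaloisCommon
import Fermat.Agent.S51.MapCompat
import Fermat.Prelude.Def_FLTPrelim_ModularRep

/-!
# S51, the mod-5 side

If the mod-5 representation of an elliptic curve `W` over `ℚ` is not irreducible then `j(W)` is of the
form `(s² + 10 s + 5)³ / s` for a nonzero rational `s` (stated without division).
-/

set_option autoImplicit false
set_option linter.unusedSectionVars false

namespace Fermat.Agent.S51

open WeierstrassCurve WeierstrassCurve.Affine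

instance fact_prime_five_s51 : Fact (Nat.Prime 5) := ⟨by norm_num⟩

lemma zmod_five_cases (c : ZMod 5) : c = 0 ∨ c = 1 ∨ c = 2 ∨ c = 3 ∨ c = 4 := by
  revert c; decide

section generic

variable {F : Type*} [Field F] [DecidableEq F] (E : Affine F)

lemma m5_coe_torsion :
    ((Submodule.torsionBy ℤ E.Point ((5 : ℕ) : ℤ) : Submodule ℤ E.Point) : Set E.Point) =
      {P : E.Point | (5 : ℤ) • P = 0} := by
  ext P
  simp only [SetLike.mem_coe, Submodule.mem_torsionBy_iff, Set.mem_ofPred_eq, Nat.cast_ofNat]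

lemma m5_nontrivial [IsAlgClosed F] [CharZero F] (hΔ : E.Δ ≠ 0) :
    Nontrivial (Submodule.torsionBy ℤ E.Point ((5 : ℕ) : ℤ)) := by
  obtain ⟨P, hP0, hP5⟩ := exists_five_torsion_pt (E := E) hΔ
  refine ⟨⟨⟨P, ?_⟩, 0, ?_⟩⟩
  · rw [Submodule.mem_torsionBy_iff]; exact_mod_cast hP5
  · intro h1
    exact hP0 (congrArg Subtype.val h1)

lemma m5_card_le [CharZero F] (hΔ : E.Δ ≠ 0) :
    Finite (Submodule.torsionBy ℤ E.Point ((5 : ℕ) : ℤ)) ∧
      Nat.card (Submodule.torsionBy ℤ E.Point ((5 : ℕ) : ℤ)) ≤ 25 := by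
  obtain ⟨hfin, hcard⟩ := five_torsion_finite (E := E) hΔ
  rw [← m5_coe_torsion] at hfin hcard
  refine ⟨hfin.to_subtype, ?_⟩
  rw [← Nat.card_coe_set_eq] at hcard
  exact hcard

end generic

/-- **Mod-5 side of S51**: a reducible (or trivial) mod-5 representation forces
`j = (s² + 10 s + 5)³ / s` with `s ∈ ℚ`, `s ≠ 0`. -/
theorem exists_param_five (W : WeierstrassCurve ℤ) (hΔ : W.Δ ≠ 0)
    (h : ¬ W.ModRepIsIrreducible 5) :
    ∃ s : ℚ, s ≠ 0 ∧ (W.c₄ : ℚ) ^ 3 * s = (W.Δ : ℚ) * (s ^ 2 + 10 * s + 5) ^ 3 := by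
  set E : WeierstrassCurve ℚ := W.map (Int.castRingHom ℚ) with hE
  have hΔE : E.Δ ≠ 0 := by
    rw [hE, WeierstrassCurve.map_Δ]
    simpa using hΔ
  have hΔK : (E⁄Qbar).Δ ≠ 0 := baseChange_Δ_ne_zero E hΔE
  have hnt := m5_nontrivial (E⁄Qbar) hΔK
  obtain ⟨hfin, hcard⟩ := m5_card_le (E⁄Qbar) hΔK
  unfold WeierstrassCurve.ModRepIsIrreducible Affine.Point.GaloisRepIsIrreducible at h
  push Not at h
  obtain ⟨N, hN, hbot, htop⟩ := h hnt
  obtain ⟨P, hPN, hP0⟩ := Submodule.exists_mem_ne_zero_of_ne_bot hbot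
  obtain ⟨P, hP5⟩ := P
  rcases P with _ | ⟨x, y, hxy⟩
  · exact absurd rfl hP0
  have h5P : (5 : ℤ) • (Affine.Point.some x y hxy : (E⁄Qbar).Point) = 0 := by
    have := (Submodule.mem_torsionBy_iff _ _).mp hP5
    exact_mod_cast this
  obtain ⟨h2, h3, h5⟩ := five_torsion_imp hΔK hxy h5P
  obtain ⟨y', h', hd⟩ := dbl_eq_some hxy h2
  -- the Galois conjugates of `x`
  have hcases : ∀ σ : Qbar ≃ₐ[ℚ] Qbar, σ x = x ∨ σ x = dupx (E⁄Qbar) x := by
    intro σ
    have hσ := hN σ _ hPN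
    obtain ⟨c, hc⟩ := exists_smul_eq_of_card_le_sq (p := 5) (by simpa using hcard) N htop hPN hP0 hσ
    have hc' := congrArg Subtype.val hc
    have hval : ((σ • (⟨Affine.Point.some x y hxy, hP5⟩ :
        Submodule.torsionBy ℤ (E⁄Qbar).Point ((5 : ℕ) : ℤ)) :
        Submodule.torsionBy ℤ (E⁄Qbar).Point ((5 : ℕ) : ℤ)) : (E⁄Qbar).Point) =
        Affine.Point.some (σ x) (σ y) ((WeierstrassCurve.Affine.baseChange_nonsingular (W := E) σ.toAlgHom.injective ..).mpr hxy) :=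
      rfl
    rw [hval] at hc'
    have hdbl : (((2 : ZMod 5) • (⟨Affine.Point.some x y hxy, hP5⟩ :
        Submodule.torsionBy ℤ (E⁄Qbar).Point ((5 : ℕ) : ℤ)) :
        Submodule.torsionBy ℤ (E⁄Qbar).Point ((5 : ℕ) : ℤ)) : (E⁄Qbar).Point) =
        Affine.Point.some (dupx (E⁄Qbar) x) y' h' := by
      rw [two_smul]
      exact hd
    rcases zmod_five_cases c with rfl | rfl | rfl | rfl | rfl
    · exfalso
      rw [zero_smul] at hc'
      exact Affine.Point.some_ne_zero _ hc'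
    · left
      rw [one_smul] at hc'
      injection hc'
    · right
      rw [hdbl] at hc'
      injection hc'
    · right
      rw [show (3 : ZMod 5) = -2 by decide, neg_smul, Submodule.coe_neg, hdbl,
        Affine.Point.neg_some] at hc'
      injection hc'
    · left
      rw [show (4 : ZMod 5) = -1 by decide, neg_smul, one_smul, Submodule.coe_neg,
        Affine.Point.neg_some] at hc'
      injection hc'
  have hfix : ∀ σ : Qbar ≃ₐ[ℚ] Qbar, σ (sAt (E⁄Qbar) x) = sAt (E⁄Qbar) x := by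
    intro σ
    have hcompat : sAt (E⁄Qbar) (σ x) = σ (sAt (E⁄Qbar) x) := sAt_algEquiv E σ x
    rw [← hcompat]
    rcases hcases σ with hx | hx
    · rw [hx]
    · rw [hx]
      exact sAt_dup h2 h3 h5
  obtain ⟨q, hq⟩ := exists_rat_of_fixed _ hfix
  obtain ⟨hj, hne⟩ := five_param_W h2 h3 h5
  have hc4 : (E⁄Qbar).c₄ = algebraMap ℚ Qbar (W.c₄ : ℚ) := by
    show (E.map (algebraMap ℚ Qbar)).c₄ = _
    rw [WeierstrassCurve.map_c₄, hE, WeierstrassCurve.map_c₄]
    simp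
  have hΔ' : (E⁄Qbar).Δ = algebraMap ℚ Qbar (W.Δ : ℚ) := by
    show (E.map (algebraMap ℚ Qbar)).Δ = _
    rw [WeierstrassCurve.map_Δ, hE, WeierstrassCurve.map_Δ]
    simp
  refine ⟨q, ?_, ?_⟩
  · intro hq0
    apply hne hΔK
    rw [← hq, hq0, map_zero]
  · rw [hc4, hΔ', ← hq] at hj
    apply (algebraMap ℚ Qbar).injective
    simpa only [map_mul, map_pow, map_add, map_ofNat] using hj

end Fermat.Agent.S51
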