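import Fermat.Agent.S51.GaloisCommon
import Fermat.Prelude.Def_FLTPrelim_ModularRep

/-!
# S51, the mod-3 side

If the mod-3 representation of an elliptic curve `W` over `ℚ` is not irreducible then `j(W)` is of the
form `(t + 27)(t + 3)³ / t` for a nonzero rational `t` (stated without division).
-/

set_option autoImplicit false
set_option linter.unusedSectionVars false

namespace Fermat.Agent.S51

open WeierstrassCurve WeierstrassCurve.Affine Polynomial

instance fact_prime_three_s51 : Fact (Nat.Prime 3) := ⟨Nat.prime_three⟩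

lemma zmod_three_cases (c : ZMod 3) : c = 0 ∨ c = 1 ∨ c = 2 := by
  revert c; decide

lemma eval_baseChange_Ψ₃ (E : WeierstrassCurve.Affine ℚ) (q : ℚ) :
    (E⁄Qbar).Ψ₃.eval (algebraMap ℚ Qbar q) = algebraMap ℚ Qbar (E.Ψ₃.eval q) := by
  show (E.map (algebraMap ℚ Qbar)).Ψ₃.eval _ = _
  rw [WeierstrassCurve.map_Ψ₃, Polynomial.eval_map, Polynomial.eval₂_at_apply]

theorem exists_rational_root_three (E : WeierstrassCurve.Affine ℚ) (hΔ : E.Δ ≠ 0)
    (hred : ¬ Affine.Point.GaloisRepIsIrreducible (K := Qbar) ℚ E 3) :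
    ∃ x₀ : ℚ, E.Ψ₃.eval x₀ = 0 := by
  have h3 : (3 : Qbar) ≠ 0 := by norm_num
  have hnt := nontrivial_three_torsion (E⁄Qbar) h3 (baseChange_Δ_ne_zero E hΔ)
  obtain ⟨hfin, hcard⟩ := card_three_torsion_le (E⁄Qbar) h3
  unfold Affine.Point.GaloisRepIsIrreducible at hred
  push Not at hred
  obtain ⟨N, hN, hbot, htop⟩ := hred hnt
  obtain ⟨P, hPN, hP0⟩ := Submodule.exists_mem_ne_zero_of_ne_bot hbot
  obtain ⟨P, hP3⟩ := P
  rcases P with _ | ⟨x, y, h⟩
  · exact absurd rfl hP0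
  -- the x-coordinate is Galois-fixed
  have hfix : ∀ σ : Qbar ≃ₐ[ℚ] Qbar, σ x = x := by
    intro σ
    have hσ := hN σ _ hPN
    obtain ⟨c, hc⟩ := exists_smul_eq_of_card_le_sq (p := 3) (by simpa using hcard) N htop hPN hP0 hσ
    have hc' := congrArg Subtype.val hc
    -- value of σ • P
    have hval : ((σ • (⟨Affine.Point.some x y h, hP3⟩ : Submodule.torsionBy ℤ (E⁄Qbar).Point (3 : ℕ)) :
        Submodule.torsionBy ℤ (E⁄Qbar).Point (3 : ℕ)) : (E⁄Qbar).Point) =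
        Affine.Point.some (σ x) (σ y) ((E.baseChange_nonsingular σ.toAlgHom.injective ..).mpr h) := rfl
    rw [hval] at hc'
    have h3P : (3 : ℤ) • (Affine.Point.some x y h : (E⁄Qbar).Point) = 0 := by
      have := (Submodule.mem_torsionBy_iff _ _).mp hP3
      exact_mod_cast this
    rcases zmod_three_cases c with rfl | rfl | rfl
    · -- c = 0
      exfalso
      rw [zero_smul] at hc'
      exact Affine.Point.some_ne_zero _ hc'
    · -- c = 1
      rw [one_smul] at hc'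
      injection hc'
    · -- c = 2
      have h2 : ((2 : ZMod 3) • (⟨Affine.Point.some x y h, hP3⟩ : Submodule.torsionBy ℤ (E⁄Qbar).Point (3 : ℕ)) :
          Submodule.torsionBy ℤ (E⁄Qbar).Point (3 : ℕ)) =
          ⟨-Affine.Point.some x y h, Submodule.neg_mem _ hP3⟩ := by
        rw [two_smul]
        apply Subtype.ext
        show Affine.Point.some x y h + Affine.Point.some x y h = -Affine.Point.some x y h
        rw [eq_neg_iff_add_eq_zero]
        rw [show (3 : ℤ) = 1 + 1 + 1 by norm_num, add_zsmul, add_zsmul, one_zsmul] at h3P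
        exact h3P
      have hc2 : Affine.Point.some (σ x) (σ y) ((E.baseChange_nonsingular σ.toAlgHom.injective ..).mpr h)
          = -Affine.Point.some x y h := by
        rw [hc']
        exact congrArg Subtype.val h2
      rw [Affine.Point.neg_some] at hc2
      injection hc2
  obtain ⟨q, hq⟩ := exists_rat_of_fixed x hfix
  refine ⟨q, ?_⟩
  have hroot : (E⁄Qbar).Ψ₃.eval x = 0 := by
    apply (three_zsmul_some_eq_zero_iff (E⁄Qbar) h).mp
    have := (Submodule.mem_torsionBy_iff _ _).mp hP3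
    exact_mod_cast this
  rw [← hq, eval_baseChange_Ψ₃] at hroot
  exact (map_eq_zero_iff _ (algebraMap ℚ Qbar).injective).mp hroot

lemma param_identity_three (c4 Δ B2 B4 B6 : ℚ) (hrel : B2 * B6 = B4 ^ 2)
    (hc4 : c4 = B2 ^ 2 - 24 * B4)
    (hΔ : Δ = -8 * B4 ^ 3 - 27 * B6 ^ 2 + 9 * B2 * B4 * B6) (hΔ0 : Δ ≠ 0) :
    ∃ t : ℚ, t ≠ 0 ∧ c4 ^ 3 * t = (t + 27) * (t + 3) ^ 3 * Δ := by
  have hB6 : B6 ≠ 0 := by
    rintro rfl
    have hB4 : B4 = 0 := by
      have : B4 ^ 2 = 0 := by rw [← hrel]; ring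
      exact pow_eq_zero_iff (two_ne_zero) |>.mp this
    apply hΔ0
    rw [hΔ, hB4]; ring
  have hB2 : B2 = B4 ^ 2 / B6 := by
    field_simp
    linear_combination hrel
  subst hB2
  have hΔ' : Δ = B6 ^ 2 * (B4 ^ 3 / B6 ^ 2 - 27) := by
    rw [hΔ]; field_simp; ring
  refine ⟨B4 ^ 3 / B6 ^ 2 - 27, ?_, ?_⟩
  · intro h0
    apply hΔ0
    rw [hΔ', h0, mul_zero]
  · rw [hc4, hΔ']
    field_simp
    ring

lemma param_of_root_three (E : WeierstrassCurve ℚ) (hΔ : E.Δ ≠ 0) (r : ℚ)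
    (hr : E.Ψ₃.eval r = 0) :
    ∃ t : ℚ, t ≠ 0 ∧ E.c₄ ^ 3 * t = (t + 27) * (t + 3) ^ 3 * E.Δ := by
  rw [eval_Psi3] at hr
  apply param_identity_three E.c₄ E.Δ (E.b₂ + 12 * r) (E.b₄ + r * E.b₂ + 6 * r ^ 2)
    (E.b₆ + 2 * r * E.b₄ + r ^ 2 * E.b₂ + 4 * r ^ 3) ?_ ?_ ?_ hΔ
  · have h8 := E.b_relation
    linear_combination 4 * hr - h8
  · simp only [WeierstrassCurve.c₄]; ring
  · have h8 := E.b_relation
    simp only [WeierstrassCurve.Δ]
    linear_combination (6 * E.b₂ * r + 36 * r ^ 2) * h8 - (E.b₂ + 12 * r) ^ 2 * hr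

/-- **Mod-3 side of S51**: a reducible (or trivial) mod-3 representation forces
`j = (t + 27)(t + 3)³ / t` with `t ∈ ℚ`, `t ≠ 0`. -/
theorem exists_param_three (W : WeierstrassCurve ℤ) (hΔ : W.Δ ≠ 0)
    (h : ¬ W.ModRepIsIrreducible 3) :
    ∃ t : ℚ, t ≠ 0 ∧ (W.c₄ : ℚ) ^ 3 * t = (t + 27) * (t + 3) ^ 3 * (W.Δ : ℚ) := by
  have hΔ' : (W.map (Int.castRingHom ℚ)).Δ ≠ 0 := by
    rw [WeierstrassCurve.map_Δ]
    simpa using hΔ
  obtain ⟨r, hr⟩ := exists_rational_root_three (W.map (Int.castRingHom ℚ)) hΔ' h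
  obtain ⟨t, ht0, ht⟩ := param_of_root_three (W.map (Int.castRingHom ℚ)) hΔ' r hr
  refine ⟨t, ht0, ?_⟩
  rw [WeierstrassCurve.map_Δ, WeierstrassCurve.map_c₄] at ht
  simpa using ht

end Fermat.Agent.S51
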