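import Mathlib

set_option autoImplicit false

namespace Fermat.Agent.S51

/-- The statement that the curve `y² = x(x-1)(x-81)` has only the obvious rational points. -/
def E3Statement : Prop := ∀ x y : ℚ, y ^ 2 = x * (x - 1) * (x - 81) → y = 0

/-- rational points of `y² = x(x+9)(x-16)` (the curve `X₀(15)`), via the 2-isogeny to
`y² = x(x-1)(x-81)`. -/
theorem E15_points (hE3 : E3Statement) (x y : ℚ) (h : y ^ 2 = x * (x + 9) * (x - 16)) :
    x = 0 ∨ x = -9 ∨ x = 16 ∨ x = 36 ∨ x = -4 := by
  by_cases h16 : x = 16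
  · exact Or.inr (Or.inr (Or.inl h16))
  have hx : x - 16 ≠ 0 := sub_ne_zero.mpr h16
  have key := hE3 (y ^ 2 / (x - 16) ^ 2) (y * ((x - 16) ^ 2 - 400) / (x - 16) ^ 2) (by
    field_simp
    rw [h]
    ring)
  have : y * ((x - 16) ^ 2 - 400) = 0 := by
    rcases div_eq_zero_iff.mp key with h0 | h0
    · exact h0
    · exact absurd (pow_eq_zero_iff (by norm_num) |>.mp h0) hx
  rcases mul_eq_zero.mp this with hy | hy
  · rw [hy] at h
    have : x * (x + 9) * (x - 16) = 0 := by linear_combination -h
    rcases mul_eq_zero.mp this with h1 | h1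
    · rcases mul_eq_zero.mp h1 with h2 | h2
      · exact Or.inl h2
      · exact Or.inr (Or.inl (by linear_combination h2))
    · exact absurd h1 hx
  · have : (x - 36) * (x + 4) = 0 := by linear_combination hy
    rcases mul_eq_zero.mp this with h1 | h1
    · exact Or.inr (Or.inr (Or.inr (Or.inl (by linear_combination h1))))
    · exact Or.inr (Or.inr (Or.inr (Or.inr (by linear_combination h1))))

/-- rational points on the quartic model `v² = w⁴ + 10w³ - 13w² - 10w + 1` of `X₀(15)`. -/
theorem quartic_points (hE3 : E3Statement) (w v : ℚ)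
    (h : v ^ 2 = w ^ 4 + 10 * w ^ 3 - 13 * w ^ 2 - 10 * w + 1) :
    w = 0 ∨ w = 2 ∨ w = -1 / 2 := by
  have hE := E15_points hE3 (2 * v + 2 * w ^ 2 + 10 * w - 2)
    ((4 * w + 10) * (v + w ^ 2 + 5 * w - 19) + 180) (by
      linear_combination (-8 * w ^ 2 - 40 * w - 8 * v + 152) * h)
  rcases hE with hx | hx | hx | hx | hx
  · left
    have : 36 * w ^ 2 = 0 := by
      linear_combination (1 : ℚ) * h - (v + (1 - w ^ 2 - 5 * w)) * hx / 2
    simpa using this
  · right; right
    have : 45 * (w + 1 / 2) ^ 2 = 0 := by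
      linear_combination (1 : ℚ) * h - (v + (-7 / 2 - w ^ 2 - 5 * w)) * hx / 2
    have : (w + 1 / 2) ^ 2 = 0 := by linarith
    have := pow_eq_zero_iff (by norm_num) |>.mp this
    linarith
  · right; left
    have : 20 * (w - 2) ^ 2 = 0 := by
      linear_combination (1 : ℚ) * h - (v + (9 - w ^ 2 - 5 * w)) * hx / 2
    have : (w - 2) ^ 2 = 0 := by linarith
    have := pow_eq_zero_iff (by norm_num) |>.mp this
    linarith
  · right; left
    have : 180 * (w - 2) = 0 := by
      linear_combination (-1 : ℚ) * h + (v + (19 - w ^ 2 - 5 * w)) * hx / 2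
    linarith
  · have : 20 * w * (2 * w + 1) = 0 := by
      linear_combination (1 : ℚ) * h - (v + (-1 - w ^ 2 - 5 * w)) * hx / 2
    rcases mul_eq_zero.mp this with h1 | h1
    · left
      rcases mul_eq_zero.mp h1 with h2 | h2
      · norm_num at h2
      · exact h2
    · right; right
      linarith

end Fermat.Agent.S51
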