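import Fermat.Agent.S51.Modular15
import Fermat.Agent.S51.Quartic
import Fermat.Agent.S51.Descent

/-!
# S51: the rational points of `X₀(15)` in the `(t, s)`-plane model
-/

set_option autoImplicit false

namespace Fermat.Agent.S51

open Polynomial

lemma sv_rat_root_isInt (p : ℤ[X]) (hp : p.Monic) (s : ℚ) (h : aeval s p = 0) :
    ∃ n : ℤ, (n : ℚ) = s := by
  obtain ⟨n, hn⟩ := isInteger_of_is_root_of_monic hp h
  exact ⟨n, by simpa using hn⟩

lemma sv_dS_ne_zero (s : ℚ) : dS s ≠ 0 := by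
  intro h
  obtain ⟨n, rfl⟩ := sv_rat_root_isInt
    (X ^ 6 + 24 * X ^ 5 + 189 * X ^ 4 + 520 * X ^ 3 + 315 * X ^ 2 - 25) (by monicity!) s
    (by simp only [dS] at h; simpa [map_ofNat] using h)
  have h' : n ^ 6 + 24 * n ^ 5 + 189 * n ^ 4 + 520 * n ^ 3 + 315 * n ^ 2 - 25 = 0 := by
    simp only [dS] at h
    exact_mod_cast h
  have hdvd : n ^ 2 ∣ 25 :=
    ⟨n ^ 4 + 24 * n ^ 3 + 189 * n ^ 2 + 520 * n + 315, by linear_combination -h'⟩
  have hle : n ^ 2 ≤ 25 := Int.le_of_dvd (by norm_num) hdvd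
  have h1 : -5 ≤ n := by nlinarith
  have h2 : n ≤ 5 := by nlinarith
  interval_cases n <;> omega

lemma sv_quad_ne_zero (w : ℚ) : w ^ 2 + 4 * w - 1 ≠ 0 := by
  intro h
  obtain ⟨n, rfl⟩ := sv_rat_root_isInt (X ^ 2 + 4 * X - 1) (by monicity!) w
    (by simpa [map_ofNat] using h)
  have h' : n ^ 2 + 4 * n - 1 = 0 := by exact_mod_cast h
  have hdvd : n ∣ 1 := ⟨n + 4, by linear_combination -h'⟩
  have hle : n ≤ 1 := Int.le_of_dvd (by norm_num) hdvd
  have hge : -1 ≤ n := by
    have : -n ∣ 1 := (neg_dvd).mpr hdvd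
    have := Int.le_of_dvd (by norm_num) this
    omega
  interval_cases n <;> omega

/-- The rational points of `X₀(15)`, in terms of the `X₀(3)` and `X₀(5)` parameters. -/
theorem s_values (t s : ℚ) (hs : s ≠ 0)
    (hF : s * (t + 27) * (t + 3) ^ 3 - (s ^ 2 + 10 * s + 5) ^ 3 * t = 0) :
    s = -10 ∨ s = -25 / 8 ∨ s = -25 / 2 ∨ s = -40 := by
  have hE3 : E3Statement := E3_rational_points
  have hΦ := exists_w_of_ts t s hF (sv_dS_ne_zero s)
  set w := nW t s / dS s with hw
  simp only [PhiWS] at hΦ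
  have hw0 : w ≠ 0 := by
    intro h0
    rw [h0] at hΦ
    apply hs
    linear_combination -hΦ
  have hq := sv_quad_ne_zero w
  have hv : ((2 * w ^ 3 * s + (w ^ 4 + 9 * w ^ 3 + 9 * w - 1)) / (w ^ 2 + 4 * w - 1)) ^ 2 =
      w ^ 4 + 10 * w ^ 3 - 13 * w ^ 2 - 10 * w + 1 := by
    rw [div_pow, div_eq_iff (pow_ne_zero 2 hq)]
    linear_combination 4 * w ^ 3 * hΦ
  rcases quartic_points hE3 w _ hv with h | h | h
  · exact absurd h hw0
  · rw [h] at hΦ
    have : (8 * s + 25) * (s + 10) = 0 := by linear_combination hΦ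
    rcases mul_eq_zero.mp this with h1 | h1
    · right; left; linear_combination h1 / 8
    · left; linear_combination h1
  · rw [h] at hΦ
    have : (2 * s + 25) * (s + 40) = 0 := by linear_combination -16 * hΦ
    rcases mul_eq_zero.mp this with h1 | h1
    · right; right; left; linear_combination h1 / 2
    · right; right; right; linear_combination h1

end Fermat.Agent.S51
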