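import Fermat.Agent.S51.ParamW

set_option autoImplicit false

namespace Fermat.Agent.S51

open WeierstrassCurve Polynomial

variable {F : Type*} [Field F] (W : WeierstrassCurve F)

noncomputable def psi2sqPoly : F[X] := 4 * X ^ 3 + C W.b₂ * X ^ 2 + 2 * C W.b₄ * X + C W.b₆

noncomputable def psi3Poly : F[X] :=
  3 * X ^ 4 + C W.b₂ * X ^ 3 + 3 * C W.b₄ * X ^ 2 + 3 * C W.b₆ * X + C W.b₈

noncomputable def hxPoly : F[X] := 6 * X ^ 2 + C W.b₂ * X + C W.b₄

noncomputable def psi5Poly : F[X] :=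
  psi3Poly W ^ 3 - hxPoly W * psi2sqPoly W ^ 2 * psi3Poly W + psi2sqPoly W ^ 4

lemma eval_psi2sqPoly (x : F) : (psi2sqPoly W).eval x = psi2sq W x := by
  simp [psi2sqPoly, psi2sq]

lemma eval_psi3Poly (x : F) : (psi3Poly W).eval x = psi3 W x := by
  simp [psi3Poly, psi3]

lemma eval_hxPoly (x : F) : (hxPoly W).eval x = hx W x := by
  simp [hxPoly, hx]

lemma eval_psi5Poly (x : F) : (psi5Poly W).eval x = psi5 W x := by
  simp only [psi5Poly, psi5, psi5L, eval_add, eval_sub, eval_mul, eval_pow, eval_psi2sqPoly,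
    eval_psi3Poly, eval_hxPoly]

lemma natDegree_psi3Poly (h3 : (3 : F) ≠ 0) : (psi3Poly W).natDegree = 4 := by
  unfold psi3Poly
  compute_degree!

lemma natDegree_psi5Poly (h5 : (5 : F) ≠ 0) : (psi5Poly W).natDegree = 12 := by
  unfold psi5Poly psi3Poly hxPoly psi2sqPoly
  compute_degree!

end Fermat.Agent.S51
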