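import Fermat.Agent.S51.Torsion
import Fermat.Agent.S51.Poly

set_option autoImplicit false
set_option linter.unusedSectionVars false

namespace Fermat.Agent.S51

open WeierstrassCurve WeierstrassCurve.Affine Polynomial

variable {F : Type*} [Field F] [DecidableEq F] {E : Affine F}

open Classical in
/-- a chosen point with given x-coordinate (or `0` if there is none). -/
noncomputable def pointAbove (E : Affine F) (x : F) : E.Point :=
  if hx : ∃ y h, (Point.some x y h : E.Point) = Point.some x y h then
    Point.some x hx.choose hx.choose_spec.choose else 0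

lemma eq_or_eq_neg_pointAbove {x y : F} (h : E.Nonsingular x y) :
    Point.some x y h = pointAbove E x ∨ Point.some x y h = -pointAbove E x := by
  have hx : ∃ y h, (Point.some x y h : E.Point) = Point.some x y h := ⟨y, h, rfl⟩
  simp only [pointAbove, dif_pos hx]
  exact x_eq_cases _ _

/-- points whose x-coordinates are roots of a nonzero polynomial form a finite set. -/
lemma finite_card_le (S : Set E.Point) (p : F[X]) (hp : p ≠ 0)
    (hS : ∀ x y h, (Point.some x y h : E.Point) ∈ S → p.IsRoot x) :
    S.Finite ∧ S.ncard ≤ 2 * p.natDegree + 1 := by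
  classical
  let g : Option (p.roots.toFinset × Bool) → E.Point := fun o =>
    match o with
    | none => 0
    | some (x, true) => pointAbove E x
    | some (x, false) => -pointAbove E x
  have hsub : S ⊆ Set.range g := by
    intro P hP
    cases P with
    | zero => exact ⟨none, rfl⟩
    | some x y h =>
      have hr : x ∈ p.roots.toFinset := by
        rw [Multiset.mem_toFinset, mem_roots hp]
        exact hS x y h hP
      rcases eq_or_eq_neg_pointAbove h with hc | hc
      · exact ⟨some (⟨x, hr⟩, true), hc.symm⟩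
      · exact ⟨some (⟨x, hr⟩, false), hc.symm⟩
  have hfin : (Set.range g).Finite := Set.finite_range g
  refine ⟨hfin.subset hsub, ?_⟩
  calc S.ncard ≤ (Set.range g).ncard := Set.ncard_le_ncard hsub hfin
    _ ≤ Nat.card (Option (p.roots.toFinset × Bool)) := by
        rw [← Set.image_univ]
        calc (g '' Set.univ).ncard ≤ (Set.univ : Set (Option (p.roots.toFinset × Bool))).ncard :=
              Set.ncard_image_le
          _ = Nat.card (Option (p.roots.toFinset × Bool)) := Set.ncard_univ _
    _ = 2 * p.roots.toFinset.card + 1 := by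
        rw [Nat.card_eq_fintype_card, Fintype.card_option, Fintype.card_prod, Fintype.card_bool,
          Fintype.card_coe]
        ring
    _ ≤ 2 * p.natDegree + 1 := by
        have h1 : p.roots.toFinset.card ≤ Multiset.card p.roots := Multiset.toFinset_card_le _
        have h2 := Polynomial.card_roots' p
        omega

end Fermat.Agent.S51

namespace Fermat.Agent.S51

open WeierstrassCurve WeierstrassCurve.Affine Polynomial

variable {F : Type*} [Field F] [DecidableEq F] {E : Affine F}

lemma psi3Poly_ne_zero [CharZero F] : psi3Poly E ≠ 0 := by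
  intro h
  have := natDegree_psi3Poly E (by norm_num : (3 : F) ≠ 0)
  rw [h, natDegree_zero] at this
  omega

lemma psi5Poly_ne_zero [CharZero F] : psi5Poly E ≠ 0 := by
  intro h
  have := natDegree_psi5Poly E (by norm_num : (5 : F) ≠ 0)
  rw [h, natDegree_zero] at this
  omega

lemma three_torsion_finite [CharZero F] (hΔ : E.Δ ≠ 0) :
    {P : E.Point | (3 : ℤ) • P = 0}.Finite ∧ {P : E.Point | (3 : ℤ) • P = 0}.ncard ≤ 9 := by
  have := finite_card_le {P : E.Point | (3 : ℤ) • P = 0} (psi3Poly E) psi3Poly_ne_zero
    (fun x y h hP => by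
      rw [IsRoot, eval_psi3Poly]
      exact (three_torsion_iff hΔ h).mp hP)
  rw [natDegree_psi3Poly E (by norm_num : (3 : F) ≠ 0)] at this
  exact this

lemma five_torsion_finite [CharZero F] (hΔ : E.Δ ≠ 0) :
    {P : E.Point | (5 : ℤ) • P = 0}.Finite ∧ {P : E.Point | (5 : ℤ) • P = 0}.ncard ≤ 25 := by
  have := finite_card_le {P : E.Point | (5 : ℤ) • P = 0} (psi5Poly E) psi5Poly_ne_zero
    (fun x y h hP => by
      rw [IsRoot, eval_psi5Poly]
      exact (five_torsion_imp hΔ h hP).2.2)
  rw [natDegree_psi5Poly E (by norm_num : (5 : F) ≠ 0)] at this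
  exact this

/-- over an algebraically closed field every `x` is the x-coordinate of a point. -/
lemma exists_point_above [IsAlgClosed F] (hΔ : E.Δ ≠ 0) (x : F) :
    ∃ y, E.Nonsingular x y := by
  let q : F[X] := X ^ 2 + C (E.a₁ * x + E.a₃) * X - C (x ^ 3 + E.a₂ * x ^ 2 + E.a₄ * x + E.a₆)
  have hq : q.degree ≠ 0 := by
    have : q.natDegree = 2 := by
      simp only [q]
      compute_degree!
    exact degree_ne_of_natDegree_ne (by rw [this]; norm_num)
  obtain ⟨y, hy⟩ := IsAlgClosed.exists_root q hq
  refine ⟨y, (equation_iff_nonsingular_of_Δ_ne_zero hΔ).mp ?_⟩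
  rw [equation_iff]
  simp only [q, IsRoot, eval_sub, eval_add, eval_mul, eval_pow, eval_X, eval_C] at hy
  linear_combination hy

lemma exists_three_torsion_pt [IsAlgClosed F] [CharZero F] (hΔ : E.Δ ≠ 0) :
    ∃ P : E.Point, P ≠ 0 ∧ (3 : ℤ) • P = 0 := by
  have hd : (psi3Poly E).degree ≠ 0 :=
    degree_ne_of_natDegree_ne (by rw [natDegree_psi3Poly E (by norm_num : (3 : F) ≠ 0)]; norm_num)
  obtain ⟨x, hx⟩ := IsAlgClosed.exists_root (psi3Poly E) hd
  rw [IsRoot, eval_psi3Poly] at hx
  obtain ⟨y, h⟩ := exists_point_above hΔ x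
  exact ⟨Point.some x y h, Point.some_ne_zero h, (three_torsion_iff hΔ h).mpr hx⟩

lemma exists_five_torsion_pt [IsAlgClosed F] [CharZero F] (hΔ : E.Δ ≠ 0) :
    ∃ P : E.Point, P ≠ 0 ∧ (5 : ℤ) • P = 0 := by
  have hd : (psi5Poly E).degree ≠ 0 :=
    degree_ne_of_natDegree_ne (by rw [natDegree_psi5Poly E (by norm_num : (5 : F) ≠ 0)]; norm_num)
  obtain ⟨x, hx⟩ := IsAlgClosed.exists_root (psi5Poly E) hd
  rw [IsRoot, eval_psi5Poly] at hx
  obtain ⟨y, h⟩ := exists_point_above hΔ x
  exact ⟨Point.some x y h, Point.some_ne_zero h, five_torsion_of hΔ h hx⟩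

end Fermat.Agent.S51
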