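import Mathlib

set_option autoImplicit false

namespace Fermat.Agent.S51

open WeierstrassCurve

variable {F : Type*} [Field F]

/-- `ψ₂²` as a function of `x`. -/
def psi2sq (W : WeierstrassCurve F) (x : F) : F :=
  4 * x ^ 3 + W.b₂ * x ^ 2 + 2 * W.b₄ * x + W.b₆

/-- `ψ₃` as a function of `x`. -/
def psi3 (W : WeierstrassCurve F) (x : F) : F :=
  3 * x ^ 4 + W.b₂ * x ^ 3 + 3 * W.b₄ * x ^ 2 + 3 * W.b₆ * x + W.b₈

/-- half of the derivative of `ψ₂²`. -/
def hx (W : WeierstrassCurve F) (x : F) : F :=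
  6 * x ^ 2 + W.b₂ * x + W.b₄

/-- `b₂ + 12 x`. -/
def tx (W : WeierstrassCurve F) (x : F) : F :=
  W.b₂ + 12 * x

lemma psi2sq_eq_sq (W : WeierstrassCurve F) {x y : F} (h : W.toAffine.Equation x y) :
    psi2sq W x = (2 * y + W.a₁ * x + W.a₃) ^ 2 := by
  rw [Affine.equation_iff] at h
  simp only [psi2sq, b₂, b₄, b₆]
  linear_combination (-4 : F) * h

lemma y_sub_negY (W : WeierstrassCurve F) (x y : F) :
    y - W.toAffine.negY x y = 2 * y + W.a₁ * x + W.a₃ := by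
  simp only [Affine.negY]; ring

variable [DecidableEq F]

lemma addX_dbl (W : WeierstrassCurve F) {x y : F} (h : W.toAffine.Equation x y)
    (hy : y ≠ W.toAffine.negY x y) :
    W.toAffine.addX x x (W.toAffine.slope x x y y) * psi2sq W x = x * psi2sq W x - psi3 W x := by
  have hne : 2 * y + W.a₁ * x + W.a₃ ≠ 0 := by
    rw [← y_sub_negY]; exact sub_ne_zero.mpr hy
  have hsl : W.toAffine.slope x x y y * (2 * y + W.a₁ * x + W.a₃) =
      3 * x ^ 2 + 2 * W.a₂ * x + W.a₄ - W.a₁ * y := by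
    rw [Affine.slope_of_Y_ne rfl hy, y_sub_negY]
    exact div_mul_cancel₀ _ hne
  generalize W.toAffine.slope x x y y = ℓ at hsl
  rw [psi2sq_eq_sq W h]
  rw [Affine.equation_iff] at h
  simp only [Affine.addX, psi3, b₂, b₄, b₆, b₈]
  linear_combination (ℓ * (2 * y + W.a₁ * x + W.a₃) + (3 * x ^ 2 + 2 * W.a₂ * x + W.a₄ - W.a₁ * y)
    + W.a₁ * (2 * y + W.a₁ * x + W.a₃)) * hsl - (W.a₁ ^ 2 + 4 * W.a₂ + 12 * x) * h

end Fermat.Agent.S51
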