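import Fermat.Agent.S51.Dbl

set_option autoImplicit false

namespace Fermat.Agent.S51

open WeierstrassCurve

variable {F : Type*} [Field F]

section shift

variable (W : WeierstrassCurve F) (x d : F)

lemma tx_add : tx W (x + d) = tx W x + 12 * d := by
  simp only [tx]; ring

lemma hx_add : hx W (x + d) = hx W x + d * tx W x + 6 * d ^ 2 := by
  simp only [hx, tx]; ring

lemma psi2sq_add :
    psi2sq W (x + d) = psi2sq W x + 2 * d * hx W x + d ^ 2 * tx W x + 4 * d ^ 3 := by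
  simp only [psi2sq, hx, tx]; ring

lemma psi3_add :
    psi3 W (x + d) = psi3 W x + 3 * d * psi2sq W x + 3 * d ^ 2 * hx W x + d ^ 3 * tx W x
      + 3 * d ^ 4 := by
  simp only [psi3, psi2sq, hx, tx]; ring

/-- the `b`-relation at the point `x`. -/
lemma rel_at : 4 * psi3 W x = tx W x * psi2sq W x - hx W x ^ 2 := by
  have h := W.b_relation
  simp only [psi3, psi2sq, hx, tx]
  linear_combination h

lemma c4_at : W.c₄ = tx W x ^ 2 - 24 * hx W x := by
  simp only [c₄, tx, hx]; ring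

lemma disc_at : W.Δ = -(tx W x ^ 2 * psi3 W x) - 8 * hx W x ^ 3 - 27 * psi2sq W x ^ 2
    + 9 * tx W x * hx W x * psi2sq W x := by
  have h := W.b_relation
  simp only [Δ, psi3, psi2sq, hx, tx]
  linear_combination (6 * x * (W.b₂ + 6 * x)) * h

end shift

end Fermat.Agent.S51

namespace Fermat.Agent.S51

variable {F : Type*} [Field F]

/-! ### Abstract local invariants `(T, H, P, Ψ)` with `4Ψ = TP - H²` -/

section abstract

variable (T H P Ψ : F)

/-- discriminant in local invariants -/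
def discL : F := -(T ^ 2 * Ψ) - 8 * H ^ 3 - 27 * P ^ 2 + 9 * T * H * P

/-- `c₄` in local invariants -/
def c4L : F := T ^ 2 - 24 * H

/-- `ψ₅` in local invariants -/
def psi5L : F := Ψ ^ 3 - H * P ^ 2 * Ψ + P ^ 4

/-- scaling parameter `U = u²` of the Tate normal form -/
def UL : F := P ^ 3 / Ψ ^ 2

/-- the Tate parameter `b` -/
def betaL : F := -Ψ ^ 3 / P ^ 4

/-- the Tate parameter `c` -/
def gammaL : F := 1 - H * Ψ / P ^ 2

variable {T H P Ψ}

lemma discL_eq_zero_of (hR : 4 * Ψ = T * P - H ^ 2) (hP : P = 0) (hΨ : Ψ = 0) :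
    discL T H P Ψ = 0 := by
  subst hP hΨ
  have hH : H = 0 := by
    have : H ^ 2 = 0 := by linear_combination hR
    exact pow_eq_zero_iff (two_ne_zero) |>.mp this
  subst hH
  simp [discL]

lemma UL_ne_zero (hP : P ≠ 0) (hΨ : Ψ ≠ 0) : UL P Ψ ≠ 0 := by
  simp only [UL]; exact div_ne_zero (pow_ne_zero _ hP) (pow_ne_zero _ hΨ)

lemma betaL_ne_zero (hP : P ≠ 0) (hΨ : Ψ ≠ 0) : betaL P Ψ ≠ 0 := by
  simp only [betaL]
  exact div_ne_zero (neg_ne_zero.mpr (pow_ne_zero _ hΨ)) (pow_ne_zero _ hP)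

/-- Tate normal form of the local invariants. -/
lemma normal_form (hR : 4 * Ψ = T * P - H ^ 2) (hP : P ≠ 0) (hΨ : Ψ ≠ 0) :
    T = UL P Ψ * ((1 - gammaL H P Ψ) ^ 2 - 4 * betaL P Ψ) ∧
    H = -(UL P Ψ ^ 2 * betaL P Ψ * (1 - gammaL H P Ψ)) ∧
    P = UL P Ψ ^ 3 * betaL P Ψ ^ 2 ∧
    Ψ = -(UL P Ψ ^ 4 * betaL P Ψ ^ 3) := by
  simp only [UL, betaL, gammaL]
  refine ⟨?_, ?_, ?_, ?_⟩
  · field_simp
    linear_combination (-Ψ ^ 2) * hR
  · field_simp
    ring
  · field_simp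
  · field_simp

end abstract

section nf

variable (U b c : F)

/-- local invariants of the Tate normal form `E(b,c)` scaled by `U`. -/
def nfT : F := U * ((1 - c) ^ 2 - 4 * b)
def nfH : F := -(U ^ 2 * b * (1 - c))
def nfP : F := U ^ 3 * b ^ 2
def nfΨ : F := -(U ^ 4 * b ^ 3)

lemma nf_rel : 4 * nfΨ U b = nfT U b c * nfP U b - nfH U b c ^ 2 := by
  simp only [nfT, nfH, nfP, nfΨ]; ring

lemma nf_psi5L : psi5L (nfH U b c) (nfP U b) (nfΨ U b) = U ^ 12 * b ^ 8 * (c - b) := by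
  simp only [psi5L, nfH, nfP, nfΨ]; ring

lemma nf_c4L : c4L (nfT U b b) (nfH U b b) =
    U ^ 2 * (b ^ 4 - 12 * b ^ 3 + 14 * b ^ 2 + 12 * b + 1) := by
  simp only [c4L, nfT, nfH]; ring

lemma nf_discL : discL (nfT U b b) (nfH U b b) (nfP U b) (nfΨ U b) =
    U ^ 6 * b ^ 5 * (b ^ 2 - 11 * b - 1) := by
  simp only [discL, nfT, nfH, nfP, nfΨ]; ring

/-- `ψ₂²` at the doubled point, `d = U b`. -/
lemma nf_P_dbl : nfP U b + 2 * (U * b) * nfH U b c + (U * b) ^ 2 * nfT U b c + 4 * (U * b) ^ 3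
    = U ^ 3 * b ^ 2 * c ^ 2 := by
  simp only [nfT, nfH, nfP]; ring

/-- `ψ₃` at the doubled point, `d = U b`. -/
lemma nf_Ψ_dbl : nfΨ U b + 3 * (U * b) * nfP U b + 3 * (U * b) ^ 2 * nfH U b c
    + (U * b) ^ 3 * nfT U b c + 3 * (U * b) ^ 4 = U ^ 4 * b ^ 3 * (c + c ^ 2 - b) := by
  simp only [nfT, nfH, nfP, nfΨ]; ring

/-- `hx` at the doubled point, `d = U b`. -/
lemma nf_H_dbl : nfH U b c + (U * b) * nfT U b c + 6 * (U * b) ^ 2
    = U ^ 2 * b * (c ^ 2 - c + 2 * b) := by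
  simp only [nfT, nfH]; ring

end nf

end Fermat.Agent.S51
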