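import Mathlib

set_option autoImplicit false

namespace Fermat.Agent.S51

/-- denominator of the `X₀(15)` coordinate `w` in terms of `(t, s)`. -/
def dS (s : ℚ) : ℚ := s ^ 6 + 24 * s ^ 5 + 189 * s ^ 4 + 520 * s ^ 3 + 315 * s ^ 2 - 25

/-- numerator of the `X₀(15)` coordinate `w` in terms of `(t, s)`. -/
def nW (t s : ℚ) : ℚ :=
  (-s ^ 7 - 33 * s ^ 6 - 405 * s ^ 5 - 2230 * s ^ 4 - 5175 * s ^ 3 - 3582 * s ^ 2 - 146 * s)
  + (s ^ 4 + 20 * s ^ 3 + 281 * s ^ 2 + 613 * s + 25) * t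
  + (33 * s ^ 2 + 99 * s) * t ^ 2 + (s ^ 2 + 3 * s) * t ^ 3

/-- the relation between the `X₀(15)` coordinate `w` and the `X₀(5)` coordinate `s`. -/
def PhiWS (w s : ℚ) : ℚ := w ^ 3 * s ^ 2 + (w ^ 4 + 9 * w ^ 3 + 9 * w - 1) * s + 125 * w

set_option maxHeartbeats 4000000 in
theorem exists_w_of_ts (t s : ℚ)
    (hF : s * (t + 27) * (t + 3) ^ 3 - (s ^ 2 + 10 * s + 5) ^ 3 * t = 0) (hd : dS s ≠ 0) :
    PhiWS (nW t s / dS s) s = 0 := by
  have key : dS s ^ 4 * PhiWS (nW t s / dS s) s = 0 := by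
    have e : dS s ^ 4 * PhiWS (nW t s / dS s) s =
        nW t s ^ 3 * dS s * s ^ 2 +
          (nW t s ^ 4 + 9 * nW t s ^ 3 * dS s + 9 * nW t s * dS s ^ 3 - dS s ^ 4) * s +
          125 * nW t s * dS s ^ 3 := by
      simp only [PhiWS]
      field_simp
    rw [e]
    simp only [nW, dS]
    linear_combination
      (t^8 * s^8 + 12 * t^8 * s^7 + 54 * t^8 * s^6 + 108 * t^8 * s^5 + 81 * t^8 * s^4
      + 96 * t^7 * s^8 + 1152 * t^7 * s^7 + 5184 * t^7 * s^6 + 10368 * t^7 * s^5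
      + 7776 * t^7 * s^4 + 4 * t^6 * s^10 + 116 * t^6 * s^9 + 4760 * t^6 * s^8
      + 48532 * t^6 * s^7 + 206308 * t^6 * s^6 + 400716 * t^6 * s^5 + 296352 * t^6 * s^4
      + 2700 * t^6 * s^3 - 2 * t^5 * s^13 - 84 * t^5 * s^12 - 1458 * t^5 * s^11
      - 13328 * t^5 * s^10 - 66660 * t^5 * s^9 - 101256 * t^5 * s^8 + 677612 * t^5 * s^7
      + 3885072 * t^5 * s^6 + 7752294 * t^5 * s^5 + 5687388 * t^5 * s^4 + 174150 * t^5 * s^3
      - 129 * t^4 * s^13 - 5412 * t^4 * s^12 - 93765 * t^4 * s^11 - 865782 * t^4 * s^10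
      - 4576350 * t^4 * s^9 - 13188558 * t^4 * s^8 - 14421558 * t^4 * s^7
      + 20715060 * t^4 * s^6 + 72259095 * t^4 * s^5 + 57526350 * t^4 * s^4 + 3870675 * t^4 * s^3
      + 33750 * t^4 * s^2 - 5 * t^3 * s^15 - 295 * t^3 * s^14 - 10174 * t^3 * s^13
      - 219610 * t^3 * s^12 - 2895183 * t^3 * s^11 - 23406469 * t^3 * s^10
      - 116448660 * t^3 * s^9 - 348362620 * t^3 * s^8 - 575340467 * t^3 * s^7
      - 376211233 * t^3 * s^6 + 170333234 * t^3 * s^5 + 283057398 * t^3 * s^4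
      + 34331175 * t^3 * s^3 + 1198125 * t^3 * s^2 + t^2 * s^18 + 72 * t^2 * s^17
      + 2304 * t^2 * s^16 + 43019 * t^2 * s^15 + 516409 * t^2 * s^14 + 4107696 * t^2 * s^13
      + 21012062 * t^2 * s^12 + 57642539 * t^2 * s^11 - 17864955 * t^2 * s^10
      - 802866008 * t^2 * s^9 - 3097980652 * t^2 * s^8 - 5825051619 * t^2 * s^7
      - 5438771813 * t^2 * s^6 - 1769243276 * t^2 * s^5 + 331245318 * t^2 * s^4
      + 105898125 * t^2 * s^3 + 10108750 * t^2 * s^2 + 187500 * t^2 * s + 33 * t * s^18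
      + 2373 * t * s^17 + 75804 * t * s^16 + 1416525 * t * s^15 + 17160651 * t * s^14
      + 141090672 * t * s^13 + 799970850 * t * s^12 + 3105332025 * t * s^11
      + 7956683499 * t * s^10 + 12175120650 * t * s^9 + 7413507432 * t * s^8
      - 7049799777 * t * s^7 - 15239887371 * t * s^6 - 8939928192 * t * s^5
      - 1597694214 * t * s^4 - 65926725 * t * s^3 + 22132500 * t * s^2 + 2390625 * t * s
      + s^20 + 89 * s^19 + 3758 * s^18 + 98832 * s^17 + 1784673 * s^16 + 23082897 * s^15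
      + 217759011 * s^14 + 1506336741 * s^13 + 7615594356 * s^12 + 27839822704 * s^11
      + 72213673751 * s^10 + 129043012358 * s^9 + 151785366015 * s^8 + 109235961909 * s^7
      + 42040798131 * s^6 + 5700079737 * s^5 - 900927636 * s^4 - 380255475 * s^3
      - 203125 * s^2 + 9625000 * s + 390625) * hF
  rcases mul_eq_zero.mp key with h | h
  · exact absurd (pow_eq_zero_iff (by norm_num) |>.mp h) hd
  · exact h

end Fermat.Agent.S51
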