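import Fermat.Agent.S51.Local

set_option autoImplicit false

namespace Fermat.Agent.S51

open WeierstrassCurve

variable {F : Type*} [Field F]

/-! ### abstract 3-torsion and 5-torsion parameter identities -/

section abstract

variable {T H P Ψ : F}

lemma three_param (hR : 4 * Ψ = T * P - H ^ 2) (hΨ : Ψ = 0) (hP : P ≠ 0) :
    c4L T H ^ 3 * (T * H / P - 27) =
      discL T H P Ψ * ((T * H / P - 27) + 27) * ((T * H / P - 27) + 3) ^ 3 ∧
    (T * H / P - 27) * P ^ 2 = discL T H P Ψ := by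
  subst hΨ
  have hT : T = H ^ 2 / P := by
    field_simp
    linear_combination -hR
  subst hT
  simp only [c4L, discL]
  constructor
  · field_simp
    ring
  · field_simp
    ring

lemma five_param (hR : 4 * Ψ = T * P - H ^ 2) (hP : P ≠ 0) (hΨ : Ψ ≠ 0)
    (h5 : psi5L H P Ψ = 0) :
    gammaL H P Ψ = betaL P Ψ := by
  obtain ⟨hT, hH, hP', hΨ'⟩ := normal_form hR hP hΨ
  have hU := UL_ne_zero hP hΨ
  have hb := betaL_ne_zero hP hΨ
  set U := UL P Ψ
  set b := betaL P Ψ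
  set c := gammaL H P Ψ
  have h5' : psi5L (nfH U b c) (nfP U b) (nfΨ U b) = 0 := by
    have e1 : nfH U b c = H := by rw [hH]; simp only [nfH]
    have e2 : nfP U b = P := by rw [hP']; simp only [nfP]
    have e3 : nfΨ U b = Ψ := by rw [hΨ']; simp only [nfΨ]
    rw [e1, e2, e3]; exact h5
  rw [nf_psi5L] at h5'
  have : c - b = 0 := by
    rcases mul_eq_zero.mp h5' with h | h
    · exfalso
      rcases mul_eq_zero.mp h with h | h
      · exact hU (pow_eq_zero_iff (by norm_num) |>.mp h)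
      · exact hb (pow_eq_zero_iff (by norm_num) |>.mp h)
    · exact h
  linear_combination this

lemma exists_nf (hR : 4 * Ψ = T * P - H ^ 2) (hP : P ≠ 0) (hΨ : Ψ ≠ 0) :
    ∃ U b c : F, U ≠ 0 ∧ b ≠ 0 ∧ T = nfT U b c ∧ H = nfH U b c ∧ P = nfP U b ∧ Ψ = nfΨ U b ∧
      b = betaL P Ψ ∧ c = gammaL H P Ψ := by
  obtain ⟨hT, hH, hP', hΨ'⟩ := normal_form hR hP hΨ
  exact ⟨UL P Ψ, betaL P Ψ, gammaL H P Ψ, UL_ne_zero hP hΨ, betaL_ne_zero hP hΨ,
    hT, hH, hP', hΨ', rfl, rfl⟩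

/-- the `X₀(5)`-parameter as a function of `β`. -/
def sOfBeta (b : F) : F := (b ^ 2 - 11 * b - 1) / b

lemma sOfBeta_neg_inv {b : F} (hb : b ≠ 0) : sOfBeta (-1 / b) = sOfBeta b := by
  simp only [sOfBeta]
  field_simp
  ring

lemma five_param_j (hR : 4 * Ψ = T * P - H ^ 2) (hP : P ≠ 0) (hΨ : Ψ ≠ 0)
    (h5 : psi5L H P Ψ = 0) :
    c4L T H ^ 3 * sOfBeta (betaL P Ψ) =
      discL T H P Ψ * (sOfBeta (betaL P Ψ) ^ 2 + 10 * sOfBeta (betaL P Ψ) + 5) ^ 3 ∧
    sOfBeta (betaL P Ψ) * (UL P Ψ ^ 6 * betaL P Ψ ^ 6) = discL T H P Ψ := by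
  have hcb := five_param hR hP hΨ h5
  obtain ⟨hT, hH, hP', hΨ'⟩ := normal_form hR hP hΨ
  have hU := UL_ne_zero hP hΨ
  have hb := betaL_ne_zero hP hΨ
  rw [hcb] at hT hH
  set U := UL P Ψ
  set b := betaL P Ψ
  have e0 : T = nfT U b b := by rw [hT]; simp only [nfT]
  have e1 : H = nfH U b b := by rw [hH]; simp only [nfH]
  have e2 : P = nfP U b := by rw [hP']; simp only [nfP]
  have e3 : Ψ = nfΨ U b := by rw [hΨ']; simp only [nfΨ]
  have hc4 : c4L T H = U ^ 2 * (b ^ 4 - 12 * b ^ 3 + 14 * b ^ 2 + 12 * b + 1) := by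
    rw [e0, e1, nf_c4L]
  have hd : discL T H P Ψ = U ^ 6 * b ^ 5 * (b ^ 2 - 11 * b - 1) := by
    rw [e0, e1, e2, e3, nf_discL]
  rw [hc4, hd]
  simp only [sOfBeta]
  constructor
  · field_simp
    ring
  · field_simp

end abstract

end Fermat.Agent.S51
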