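import Fermat.Agent.S51.Param

set_option autoImplicit false

namespace Fermat.Agent.S51

open WeierstrassCurve

variable {F : Type*} [Field F] (W : WeierstrassCurve F) (x : F)

/-- x-coordinate of the double of a point with x-coordinate `x`. -/
def dupx : F := x - psi3 W x / psi2sq W x

/-- the 5-division polynomial (up to sign) as a function of `x`. -/
def psi5 : F := psi5L (hx W x) (psi2sq W x) (psi3 W x)

/-- Tate parameter at `x`. -/
def betaAt : F := betaL (psi2sq W x) (psi3 W x)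

/-- `X₀(5)` parameter at `x`. -/
def sAt : F := sOfBeta (betaAt W x)

/-- `X₀(3)` parameter at `x`. -/
def tAt : F := tx W x * hx W x / psi2sq W x - 27

variable {W x}

lemma disc_eq_zero_of (h2 : psi2sq W x = 0) (h3 : psi3 W x = 0) : W.Δ = 0 := by
  rw [disc_at W x]
  exact discL_eq_zero_of (rel_at W x) h2 h3

lemma three_param_W (h3 : psi3 W x = 0) (h2 : psi2sq W x ≠ 0) :
    W.c₄ ^ 3 * tAt W x = W.Δ * (tAt W x + 27) * (tAt W x + 3) ^ 3 ∧
    tAt W x * psi2sq W x ^ 2 = W.Δ := by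
  have := three_param (rel_at W x) h3 h2
  rw [c4_at W x, disc_at W x]
  exact this

lemma psi5_ne (hΔ : W.Δ ≠ 0) (h5 : psi5 W x = 0) : psi2sq W x ≠ 0 ∧ psi3 W x ≠ 0 := by
  simp only [psi5, psi5L] at h5
  constructor
  · intro h2
    rw [h2] at h5
    have h3 : psi3 W x = 0 := by
      have : psi3 W x ^ 3 = 0 := by linear_combination h5
      exact pow_eq_zero_iff (by norm_num) |>.mp this
    exact hΔ (disc_eq_zero_of h2 h3)
  · intro h3
    rw [h3] at h5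
    have h2 : psi2sq W x = 0 := by
      have : psi2sq W x ^ 4 = 0 := by linear_combination h5
      exact pow_eq_zero_iff (by norm_num) |>.mp this
    exact hΔ (disc_eq_zero_of h2 h3)

lemma five_param_W (h2 : psi2sq W x ≠ 0) (h3 : psi3 W x ≠ 0) (h5 : psi5 W x = 0) :
    W.c₄ ^ 3 * sAt W x = W.Δ * (sAt W x ^ 2 + 10 * sAt W x + 5) ^ 3 ∧
    (W.Δ ≠ 0 → sAt W x ≠ 0) := by
  have := five_param_j (rel_at W x) h2 h3 h5
  rw [c4_at W x, disc_at W x]
  refine ⟨this.1, fun hΔ hs => hΔ ?_⟩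
  have h := this.2
  simp only [sAt, betaAt] at hs
  rw [hs, zero_mul] at h
  exact h.symm

/-- the general doubling data in normal form coordinates -/
lemma dup_data (h2 : psi2sq W x ≠ 0) (h3 : psi3 W x ≠ 0) :
    ∃ U b c : F, U ≠ 0 ∧ b ≠ 0 ∧ b = betaAt W x ∧ c = gammaL (hx W x) (psi2sq W x) (psi3 W x) ∧
      hx W x = nfH U b c ∧ psi2sq W x = nfP U b ∧ psi3 W x = nfΨ U b ∧
      dupx W x = x + U * b ∧
      psi2sq W (dupx W x) = U ^ 3 * b ^ 2 * c ^ 2 ∧
      psi3 W (dupx W x) = U ^ 4 * b ^ 3 * (c + c ^ 2 - b) ∧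
      hx W (dupx W x) = U ^ 2 * b * (c ^ 2 - c + 2 * b) := by
  obtain ⟨U, b, c, hU, hb, hT, hH, hP, hΨ, hb', hc'⟩ := exists_nf (rel_at W x) h2 h3
  have hd : dupx W x = x + U * b := by
    simp only [dupx]
    rw [hP, hΨ]
    simp only [nfP, nfΨ]
    field_simp
    ring
  refine ⟨U, b, c, hU, hb, hb', hc', hH, hP, hΨ, hd, ?_, ?_, ?_⟩
  · rw [hd, psi2sq_add, hT, hH, hP, nf_P_dbl]
  · rw [hd, psi3_add, hT, hH, hP, hΨ, nf_Ψ_dbl]
  · rw [hd, hx_add, hT, hH, nf_H_dbl]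

lemma five_dup (h2 : psi2sq W x ≠ 0) (h3 : psi3 W x ≠ 0) (h5 : psi5 W x = 0) :
    psi2sq W (dupx W x) ≠ 0 ∧ psi3 W (dupx W x) ≠ 0 ∧
    betaAt W (dupx W x) = -1 / betaAt W x ∧ dupx W (dupx W x) = x := by
  obtain ⟨U, b, c, hU, hb, hb', hc', -, -, -, hd, hP1, hΨ1, -⟩ := dup_data h2 h3
  have hcb : c = b := by
    rw [hc', hb']
    exact five_param (rel_at W x) h2 h3 h5
  subst hcb
  have hP1' : psi2sq W (dupx W x) = U ^ 3 * c ^ 4 := by rw [hP1]; ring
  have hΨ1' : psi3 W (dupx W x) = U ^ 4 * c ^ 5 := by rw [hΨ1]; ring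
  have hP1ne : psi2sq W (dupx W x) ≠ 0 := by
    rw [hP1']; exact mul_ne_zero (pow_ne_zero _ hU) (pow_ne_zero _ hb)
  have hΨ1ne : psi3 W (dupx W x) ≠ 0 := by
    rw [hΨ1']; exact mul_ne_zero (pow_ne_zero _ hU) (pow_ne_zero _ hb)
  refine ⟨hP1ne, hΨ1ne, ?_, ?_⟩
  · rw [← hb']
    simp only [betaAt, betaL]
    rw [hP1', hΨ1']
    field_simp
  · have : dupx W (dupx W x) = dupx W x - psi3 W (dupx W x) / psi2sq W (dupx W x) := rfl
    rw [this, hP1', hΨ1', hd]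
    field_simp
    ring

lemma sAt_dup (h2 : psi2sq W x ≠ 0) (h3 : psi3 W x ≠ 0) (h5 : psi5 W x = 0) :
    sAt W (dupx W x) = sAt W x := by
  obtain ⟨-, -, hb, -⟩ := five_dup h2 h3 h5
  simp only [sAt]
  rw [hb]
  exact sOfBeta_neg_inv (betaL_ne_zero h2 h3)

/-- converse: if doubling twice returns to `x`, then `ψ₅(x) = 0`. -/
lemma psi5_of_dup_dup (h2 : psi2sq W x ≠ 0) (h3 : psi3 W x ≠ 0)
    (h2' : psi2sq W (dupx W x) ≠ 0) (hdd : dupx W (dupx W x) = x) : psi5 W x = 0 := by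
  obtain ⟨U, b, c, hU, hb, hb', hc', hH, hP, hΨ, hd, hP1, hΨ1, -⟩ := dup_data h2 h3
  have hc0 : c ≠ 0 := by
    intro hc0
    apply h2'
    rw [hP1, hc0]; ring
  have hdd' : dupx W x - psi3 W (dupx W x) / psi2sq W (dupx W x) = x := hdd
  rw [hP1, hΨ1, hd] at hdd'
  have hcb : c = b := by
    field_simp at hdd'
    have h1 : U * b * (c - b) = 0 := by linear_combination -hdd'
    rcases mul_eq_zero.mp h1 with h | h
    · exfalso
      rcases mul_eq_zero.mp h with h | h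
      · exact hU h
      · exact hb h
    · linear_combination h
  -- now psi5 = U^12 b^8 (c - b) = 0
  simp only [psi5]
  rw [hH, hP, hΨ, nf_psi5L, hcb]
  ring

end Fermat.Agent.S51
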