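import Fermat.Agent.S51.ParamW

set_option autoImplicit false
set_option linter.unusedSectionVars false

namespace Fermat.Agent.S51

open WeierstrassCurve WeierstrassCurve.Affine

variable {F : Type*} [Field F] [DecidableEq F] {E : Affine F}

lemma negY_eq_iff {x y : F} (h : E.Equation x y) :
    y = E.negY x y ↔ psi2sq E x = 0 := by
  rw [psi2sq_eq_sq E h, sq_eq_zero_iff, ← y_sub_negY, sub_eq_zero]

lemma dbl_eq_zero_iff {x y : F} (h : E.Nonsingular x y) :
    Point.some x y h + Point.some x y h = 0 ↔ psi2sq E x = 0 := by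
  rw [← negY_eq_iff h.1]
  constructor
  · intro h0
    by_contra hy
    rw [Point.add_self_of_Y_ne hy] at h0
    exact Point.some_ne_zero _ h0
  · intro hy
    exact Point.add_self_of_Y_eq hy

lemma some_eq_of_x_eq {x y x' : F} (h : E.Nonsingular x y) (hx : x = x') :
    ∃ y' h', Point.some x y h = Point.some x' y' h' := by
  subst hx
  exact ⟨y, h, rfl⟩

lemma dbl_eq_some {x y : F} (h : E.Nonsingular x y) (h2 : psi2sq E x ≠ 0) :
    ∃ y' h', Point.some x y h + Point.some x y h = Point.some (dupx E x) y' h' := by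
  have hy : y ≠ E.negY x y := fun hy => h2 ((negY_eq_iff h.1).mp hy)
  rw [Point.add_self_of_Y_ne hy]
  have hx : E.addX x x (E.slope x x y y) = dupx E x := by
    have := addX_dbl E h.1 hy
    simp only [dupx]
    field_simp
    linear_combination this
  exact some_eq_of_x_eq _ hx

end Fermat.Agent.S51

namespace Fermat.Agent.S51

open WeierstrassCurve WeierstrassCurve.Affine

variable {F : Type*} [Field F] [DecidableEq F] {E : Affine F}

lemma three_smul_eq_zero_iff (P : E.Point) : (3 : ℤ) • P = 0 ↔ P + P = -P := by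
  rw [show (3 : ℤ) = 2 + 1 by norm_num, add_smul, two_smul, one_smul, eq_neg_iff_add_eq_zero]

lemma x_eq_cases {x y y' : F} (h : E.Nonsingular x y) (h' : E.Nonsingular x y') :
    Point.some x y' h' = Point.some x y h ∨ Point.some x y' h' = -Point.some x y h :=
  Point.X_eq_iff.mp rfl

lemma x_eq_of_some_eq {x y x' y' : F} {h : E.Nonsingular x y} {h' : E.Nonsingular x' y'}
    (heq : Point.some x y h = Point.some x' y' h') : x = x' := by
  injection heq

lemma x_eq_of_some_eq_neg {x y x' y' : F} {h : E.Nonsingular x y} {h' : E.Nonsingular x' y'}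
    (heq : Point.some x y h = -Point.some x' y' h') : x = x' := by
  rw [Point.neg_some] at heq
  injection heq

lemma dupx_eq_self_iff {x : F} (h2 : psi2sq E x ≠ 0) : dupx E x = x ↔ psi3 E x = 0 := by
  simp only [dupx]
  constructor
  · intro h
    have : psi3 E x / psi2sq E x = 0 := by linear_combination -h
    rcases div_eq_zero_iff.mp this with h | h
    · exact h
    · exact absurd h h2
  · intro h
    rw [h, zero_div, sub_zero]

lemma three_torsion_iff (hΔ : E.Δ ≠ 0) {x y : F} (h : E.Nonsingular x y) :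
    (3 : ℤ) • Point.some x y h = 0 ↔ psi3 E x = 0 := by
  rw [three_smul_eq_zero_iff]
  constructor
  · intro h3
    have h2 : psi2sq E x ≠ 0 := by
      intro h2
      rw [(dbl_eq_zero_iff h).mpr h2] at h3
      exact Point.some_ne_zero h (neg_eq_zero.mp h3.symm)
    obtain ⟨y', h', hd⟩ := dbl_eq_some h h2
    rw [hd] at h3
    exact (dupx_eq_self_iff h2).mp (x_eq_of_some_eq_neg h3)
  · intro h3
    have h2 : psi2sq E x ≠ 0 := fun h2 => hΔ (disc_eq_zero_of h2 h3)
    obtain ⟨y', h', hd⟩ := dbl_eq_some h h2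
    rw [hd]
    have hx := (dupx_eq_self_iff h2).mpr h3
    obtain ⟨y'', h'', he⟩ := some_eq_of_x_eq h' hx
    rw [he]
    rcases x_eq_cases h h'' with hc | hc
    · exfalso
      rw [he, hc] at hd
      have : Point.some x y h = 0 := by
        have := congrArg (fun Q => Q - Point.some x y h) hd
        simp only [add_sub_cancel_right, sub_self] at this
        exact this
      exact Point.some_ne_zero h this
    · exact hc

end Fermat.Agent.S51

namespace Fermat.Agent.S51

open WeierstrassCurve WeierstrassCurve.Affine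

variable {F : Type*} [Field F] [DecidableEq F] {E : Affine F}

lemma five_smul_eq (P : E.Point) : (5 : ℤ) • P = (P + P) + (P + P) + P := by
  rw [show (5 : ℤ) = 2 + 2 + 1 by norm_num, add_smul, add_smul, two_smul, one_smul]

lemma five_torsion_imp (hΔ : E.Δ ≠ 0) {x y : F} (h : E.Nonsingular x y)
    (h5 : (5 : ℤ) • Point.some x y h = 0) :
    psi2sq E x ≠ 0 ∧ psi3 E x ≠ 0 ∧ psi5 E x = 0 := by
  set P := Point.some x y h with hPdef
  have hP0 : P ≠ 0 := Point.some_ne_zero h
  rw [five_smul_eq] at h5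
  have h2 : psi2sq E x ≠ 0 := by
    intro h2
    have : P + P = 0 := (dbl_eq_zero_iff h).mpr h2
    rw [this] at h5
    simp only [add_zero, zero_add] at h5
    exact hP0 h5
  have h3 : psi3 E x ≠ 0 := by
    intro h3
    have h3' : P + P = -P := (three_smul_eq_zero_iff P).mp ((three_torsion_iff hΔ h).mpr h3)
    rw [h3'] at h5
    have : P = 0 := by
      have h6 : -P + -P + P = -P := by abel
      rw [h6] at h5
      exact neg_eq_zero.mp h5
    exact hP0 this
  refine ⟨h2, h3, ?_⟩
  obtain ⟨y₁, h₁, hd⟩ := dbl_eq_some h h2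
  have h4 : (P + P) + (P + P) = -P := eq_neg_of_add_eq_zero_left h5
  rw [hd] at h4
  have h2' : psi2sq E (dupx E x) ≠ 0 := by
    intro h2'
    rw [(dbl_eq_zero_iff h₁).mpr h2'] at h4
    exact hP0 (neg_eq_zero.mp h4.symm)
  obtain ⟨y₂, h₂, hd₂⟩ := dbl_eq_some h₁ h2'
  rw [hd₂] at h4
  exact psi5_of_dup_dup h2 h3 h2' (x_eq_of_some_eq_neg h4)

lemma five_torsion_of (hΔ : E.Δ ≠ 0) {x y : F} (h : E.Nonsingular x y)
    (h5 : psi5 E x = 0) : (5 : ℤ) • Point.some x y h = 0 := by
  set P := Point.some x y h with hPdef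
  have hP0 : P ≠ 0 := Point.some_ne_zero h
  obtain ⟨h2, h3⟩ := psi5_ne hΔ h5
  obtain ⟨h2', -, -, hdd⟩ := five_dup h2 h3 h5
  obtain ⟨y₁, h₁, hd⟩ := dbl_eq_some h h2
  obtain ⟨y₂, h₂, hd₂⟩ := dbl_eq_some h₁ h2'
  obtain ⟨y₃, h₃, he⟩ := some_eq_of_x_eq h₂ hdd
  rw [five_smul_eq, hd, hd₂, he]
  rcases x_eq_cases h h₃ with hc | hc
  · exfalso
    -- 4P = P, so 3P = 0, so psi3 = 0
    have h4 : (P + P) + (P + P) = P := by rw [hd, hd₂, he, hc]
    have h3' : (3 : ℤ) • P = 0 := by
      rw [three_smul_eq_zero_iff]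
      have : P + P + (P + P) - P = P - P := by rw [h4]
      have h6 : P + P + (P + P) - P = P + P + P := by abel
      rw [h6, sub_self] at this
      exact eq_neg_of_add_eq_zero_left this
    exact h3 ((three_torsion_iff hΔ h).mp h3')
  · rw [hc]
    exact neg_add_cancel _

end Fermat.Agent.S51
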