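import Mathlib

/-!
# S51 common lemmas on torsion points of Weierstrass curves (generic field)

* `three_zsmul_some_eq_zero_iff` : `3 • (x, y) = 0 ↔ Ψ₃(x) = 0`.
* `card_torsion_le` : generic bound `#E[n] ≤ 2 deg p + 1` given a nonzero polynomial `p` vanishing
  at the `x`-coordinates of the nonzero `n`-torsion points.
-/

set_option autoImplicit false
set_option linter.unusedSectionVars false

namespace Fermat.Agent.S51

open WeierstrassCurve Polynomial

variable {K : Type*} [Field K] [DecidableEq K] (W : WeierstrassCurve.Affine K)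

lemma eval_Psi3 (x : K) : W.Ψ₃.eval x =
    3 * x ^ 4 + W.b₂ * x ^ 3 + 3 * W.b₄ * x ^ 2 + 3 * W.b₆ * x + W.b₈ := by
  simp [WeierstrassCurve.Ψ₃]

lemma doubling_identity (x y : K) (h : W.Equation x y) :
    (W.a₁ * y - (3 * x ^ 2 + 2 * W.a₂ * x + W.a₄)) ^ 2
      - W.a₁ * (W.a₁ * y - (3 * x ^ 2 + 2 * W.a₂ * x + W.a₄)) * (2 * y + W.a₁ * x + W.a₃)
      - (W.a₂ + 3 * x) * (2 * y + W.a₁ * x + W.a₃) ^ 2 + W.Ψ₃.eval x = 0 := by
  rw [WeierstrassCurve.Affine.equation_iff'] at h
  rw [eval_Psi3]
  simp only [WeierstrassCurve.b₂, WeierstrassCurve.b₄, WeierstrassCurve.b₆, WeierstrassCurve.b₈]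
  linear_combination (-(W.a₁ ^ 2 + 4 * W.a₂) - 12 * x) * h

lemma addX_self_sub {x y : K} (h : W.Equation x y) (hy : y ≠ W.negY x y) :
    (W.addX x x (W.slope x x y y) - x) * (2 * y + W.a₁ * x + W.a₃) ^ 2 = - W.Ψ₃.eval x := by
  have hne : 2 * y + W.a₁ * x + W.a₃ ≠ 0 := by
    intro h0
    apply hy
    simp only [WeierstrassCurve.Affine.negY]
    linear_combination h0
  have hd : y - W.negY x y = 2 * y + W.a₁ * x + W.a₃ := by
    simp only [WeierstrassCurve.Affine.negY]; ring
  rw [WeierstrassCurve.Affine.slope_of_Y_ne rfl hy, hd, WeierstrassCurve.Affine.addX]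
  have e2 := doubling_identity W x y h
  set d := 2 * y + W.a₁ * x + W.a₃ with hd'
  set N := 3 * x ^ 2 + 2 * W.a₂ * x + W.a₄ - W.a₁ * y with hN
  have e1 : N / d * d = N := div_mul_cancel₀ N hne
  have e3 : W.a₁ * y - (3 * x ^ 2 + 2 * W.a₂ * x + W.a₄) = -N := by rw [hN]; ring
  rw [e3] at e2
  linear_combination (N / d * d + N + W.a₁ * d) * e1 + e2

lemma three_zsmul_some_eq_zero_iff {x y : K} (h : W.Nonsingular x y) :
    (3 : ℤ) • (Affine.Point.some x y h) = 0 ↔ W.Ψ₃.eval x = 0 := by
  have h3 : (3 : ℤ) • (Affine.Point.some x y h) =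
      Affine.Point.some x y h + Affine.Point.some x y h + Affine.Point.some x y h := by
    rw [show (3 : ℤ) = 1 + 1 + 1 by norm_num, add_zsmul, add_zsmul, one_zsmul]
  rw [h3, ← eq_neg_iff_add_eq_zero]
  by_cases hy : y = W.negY x y
  · rw [Affine.Point.add_self_of_Y_eq hy]
    have hpY : 2 * y + W.a₁ * x + W.a₃ = 0 := by
      have := hy
      simp only [WeierstrassCurve.Affine.negY] at this
      linear_combination this
    have hpX : W.a₁ * y - (3 * x ^ 2 + 2 * W.a₂ * x + W.a₄) ≠ 0 := by
      rcases ((W.nonsingular_iff' x y).mp h).2 with h1 | h1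
      · exact h1
      · exact absurd hpY h1
    have hid := doubling_identity W x y h.1
    rw [hpY] at hid
    constructor
    · intro h0
      exact absurd (neg_eq_zero.mp h0.symm) (Affine.Point.some_ne_zero h)
    · intro h0
      rw [h0] at hid
      have : (W.a₁ * y - (3 * x ^ 2 + 2 * W.a₂ * x + W.a₄)) ^ 2 = 0 := by
        linear_combination hid
      exact absurd ((pow_eq_zero_iff (two_ne_zero)).mp this) hpX
  · rw [Affine.Point.add_self_of_Y_ne hy, Affine.Point.neg_some]
    have hne : 2 * y + W.a₁ * x + W.a₃ ≠ 0 := by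
      intro h0
      apply hy
      simp only [WeierstrassCurve.Affine.negY]
      linear_combination h0
    have key := addX_self_sub W h.1 hy
    constructor
    · intro h0
      have hx : W.addX x x (W.slope x x y y) = x := by
        injection h0
      rw [hx, sub_self, zero_mul] at key
      exact neg_eq_zero.mp key.symm
    · intro h0
      rw [h0, neg_zero] at key
      have hx : W.addX x x (W.slope x x y y) = x := by
        have := (mul_eq_zero.mp key).resolve_right (pow_ne_zero 2 hne)
        exact sub_eq_zero.mp this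
      have hns := (Affine.nonsingular_add h h fun hxy => hy hxy.right)
      rcases (Affine.Point.X_eq_iff (h₁ := hns) (h₂ := h)).mp hx with h1 | h1
      · -- P + P = P, so P = 0
        exfalso
        have h2 : Affine.Point.some x y h + Affine.Point.some x y h = Affine.Point.some x y h := by
          rw [Affine.Point.add_self_of_Y_ne hy]; exact h1
        have : Affine.Point.some x y h = 0 := by
          have := add_left_cancel (a := Affine.Point.some x y h) (b := Affine.Point.some x y h) (c := 0) (by rw [h2, add_zero])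
          exact this
        exact Affine.Point.some_ne_zero h this
      · rw [h1, Affine.Point.neg_some]

/-- the quadratic polynomial in `y` cutting out the points with given `x`. -/
noncomputable def yPoly (x : K) : K[X] :=
  X ^ 2 + C (W.a₁ * x + W.a₃) * X - C (x ^ 3 + W.a₂ * x ^ 2 + W.a₄ * x + W.a₆)

lemma yPoly_natDegree (x : K) : (yPoly W x).natDegree = 2 := by
  unfold yPoly
  compute_degree!

lemma yPoly_ne_zero (x : K) : yPoly W x ≠ 0 := by
  intro h
  have := yPoly_natDegree W x
  rw [h] at this
  simp at this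

lemma yPoly_eval (x y : K) : (yPoly W x).eval y = 0 ↔ W.Equation x y := by
  rw [WeierstrassCurve.Affine.equation_iff']
  simp only [yPoly, eval_sub, eval_add, eval_pow, eval_X, eval_mul, eval_C]
  constructor <;> intro h <;> linear_combination h

/-- the finite set of candidate affine points whose `x`-coordinate is a root of `p`. -/
noncomputable def candidates (p : K[X]) : Finset (K × K) :=
  p.roots.toFinset.biUnion fun x => (yPoly W x).roots.toFinset.image fun y => (x, y)

lemma card_candidates_le (p : K[X]) : (candidates W p).card ≤ 2 * p.natDegree := by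
  unfold candidates
  refine Finset.card_biUnion_le.trans ?_
  calc ∑ x ∈ p.roots.toFinset, (((yPoly W x).roots.toFinset).image fun y => (x, y)).card
      ≤ ∑ _x ∈ p.roots.toFinset, 2 := by
        refine Finset.sum_le_sum fun x _ => ?_
        refine Finset.card_image_le.trans ?_
        refine (Multiset.toFinset_card_le _).trans ?_
        exact (Polynomial.card_roots' _).trans (yPoly_natDegree W x).le
    _ = 2 * p.roots.toFinset.card := by rw [Finset.sum_const, smul_eq_mul, mul_comm]
    _ ≤ 2 * p.natDegree := by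
        refine Nat.mul_le_mul_left 2 ?_
        exact (Multiset.toFinset_card_le _).trans (Polynomial.card_roots' _)

lemma mem_candidates {p : K[X]} (hp : p ≠ 0) {x y : K} (hx : p.eval x = 0) (hxy : W.Equation x y) :
    (x, y) ∈ candidates W p := by
  unfold candidates
  simp only [Finset.mem_biUnion, Multiset.mem_toFinset, Finset.mem_image]
  refine ⟨x, (Polynomial.mem_roots hp).mpr hx, y, ?_, rfl⟩
  exact (Polynomial.mem_roots (yPoly_ne_zero W x)).mpr ((yPoly_eval W x y).mpr hxy)

/-- coordinates of a point, `none` for the point at infinity -/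
def coords : W.Point → Option (K × K)
  | 0 => none
  | .some x y _ => some (x, y)

lemma coords_injective : Function.Injective (coords W) := by
  rintro (_ | ⟨x₁, y₁, h₁⟩) (_ | ⟨x₂, y₂, h₂⟩) h
  · rfl
  · simp [coords] at h
  · simp [coords] at h
  · simp only [coords, Option.some.injEq, Prod.mk.injEq] at h
    obtain ⟨rfl, rfl⟩ := h
    rfl

/-- generic bound on the number of `n`-torsion points, given a nonzero polynomial vanishing at the
`x`-coordinates of the nonzero `n`-torsion points -/
lemma card_torsion_le (n : ℕ) (p : K[X]) (hp : p ≠ 0)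
    (hroot : ∀ (x y : K) (h : W.Nonsingular x y),
      (n : ℤ) • (Affine.Point.some x y h) = 0 → p.eval x = 0) :
    Finite (Submodule.torsionBy ℤ W.Point n) ∧
      Nat.card (Submodule.torsionBy ℤ W.Point n) ≤ 2 * p.natDegree + 1 := by
  let S : Finset (Option (K × K)) := Finset.insertNone (candidates W p)
  let f : Submodule.torsionBy ℤ W.Point n → S := fun P => ⟨coords W P.1, by
    obtain ⟨P, hP⟩ := P
    rcases P with _ | ⟨x, y, h⟩
    · simp [S, coords]
    · simp only [S, coords, Finset.mem_insertNone, Option.mem_def, Option.some.injEq]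
      rintro a rfl
      refine mem_candidates W hp ?_ h.1
      apply hroot x y h
      simpa [Submodule.mem_torsionBy_iff] using hP⟩
  have hf : Function.Injective f := by
    intro P Q hPQ
    have : coords W P.1 = coords W Q.1 := congrArg Subtype.val hPQ
    exact Subtype.ext (coords_injective W this)
  refine ⟨Finite.of_injective f hf, ?_⟩
  calc Nat.card (Submodule.torsionBy ℤ W.Point n) ≤ Nat.card S := Nat.card_le_card_of_injective f hf
    _ = S.card := by rw [Nat.card_eq_fintype_card, Fintype.card_coe]
    _ = (candidates W p).card + 1 := Finset.card_insertNone _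
    _ ≤ 2 * p.natDegree + 1 := Nat.add_le_add_right (card_candidates_le W p) 1

/-- over an algebraically closed field, every `x` is the `x`-coordinate of a point of the curve. -/
lemma exists_y_of_isAlgClosed [IsAlgClosed K] (x : K) : ∃ y : K, W.Equation x y := by
  have hdeg : (yPoly W x).degree ≠ 0 := by
    rw [Polynomial.degree_eq_natDegree (yPoly_ne_zero W x), yPoly_natDegree]
    norm_num
  obtain ⟨y, hy⟩ := IsAlgClosed.exists_root (yPoly W x) hdeg
  exact ⟨y, (yPoly_eval W x y).mp hy⟩

lemma exists_three_torsion [IsAlgClosed K] (h3 : (3 : K) ≠ 0) (hΔ : W.Δ ≠ 0) :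
    ∃ (x y : K) (h : W.Nonsingular x y), (3 : ℤ) • (Affine.Point.some x y h) = 0 := by
  have hdeg : W.Ψ₃.degree ≠ 0 := by
    rw [Polynomial.degree_eq_natDegree (W.Ψ₃_ne_zero h3), W.natDegree_Ψ₃ h3]
    norm_num
  obtain ⟨x, hx⟩ := IsAlgClosed.exists_root W.Ψ₃ hdeg
  obtain ⟨y, hy⟩ := exists_y_of_isAlgClosed W x
  have hns : W.Nonsingular x y := (W.equation_iff_nonsingular_of_Δ_ne_zero hΔ).mp hy
  exact ⟨x, y, hns, (three_zsmul_some_eq_zero_iff W hns).mpr hx⟩

lemma nontrivial_three_torsion [IsAlgClosed K] (h3 : (3 : K) ≠ 0) (hΔ : W.Δ ≠ 0) :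
    Nontrivial (Submodule.torsionBy ℤ W.Point (3 : ℕ)) := by
  obtain ⟨x, y, h, h0⟩ := exists_three_torsion W h3 hΔ
  refine ⟨⟨⟨Affine.Point.some x y h, ?_⟩, 0, ?_⟩⟩
  · rw [Submodule.mem_torsionBy_iff]; exact_mod_cast h0
  · intro h1
    have := congrArg Subtype.val h1
    exact Affine.Point.some_ne_zero h this

lemma card_three_torsion_le (h3 : (3 : K) ≠ 0) :
    Finite (Submodule.torsionBy ℤ W.Point (3 : ℕ)) ∧
      Nat.card (Submodule.torsionBy ℤ W.Point (3 : ℕ)) ≤ 9 := by
  have := card_torsion_le W 3 W.Ψ₃ (W.Ψ₃_ne_zero h3) (fun x y h h0 => by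
    apply (three_zsmul_some_eq_zero_iff W h).mp
    exact_mod_cast h0)
  rw [W.natDegree_Ψ₃ h3] at this
  exact this


end Fermat.Agent.S51
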